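import Mathlib
import Fermat.Prelude.Def_ModularCurve_ArithmeticGalois
import Fermat.Agent.MU.Lib.Deuring.Basic
import Fermat.Agent.MU.Lib.BadRed.AtkinLehner

section MergeWrap_Lib_BadRed_ValTransport -- from Lib/BadRed/ValTransport.lean

set_option autoImplicit false
set_option linter.style.haveILetI false

noncomputable section

open AlgebraicCurve Fermat.Agent.RR Fermat.Agent.Deuring

namespace Fermat.Agent.BadRed

variable {K F k Fk : Type*} [Field K] [Field F] [Algebra K F]
  [Field k] [Field Fk] [Algebra k Fk]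

/-- `w` as a ring homomorphism `w⁻¹ (Ov) → Ov`. -/
def comapRestr (O : ValuationSubring F) (w : F ≃ₐ[K] F) :
    ↥(O.comap (w : F →+* F)) →+* ↥O where
  toFun x := ⟨w (x : F), x.2⟩
  map_one' := Subtype.ext (map_one w)
  map_mul' x y := Subtype.ext (map_mul w (x : F) (y : F))
  map_zero' := Subtype.ext (map_zero w)
  map_add' x y := Subtype.ext (map_add w (x : F) (y : F))

theorem coe_comapRestr (O : ValuationSubring F) (w : F ≃ₐ[K] F)
    (x : ↥(O.comap (w : F →+* F))) : ((comapRestr O w x : ↥O) : F) = w (x : F) := rfl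

theorem mem_comap_iff (O : ValuationSubring F) (w : F ≃ₐ[K] F) (x : F) :
    x ∈ O.comap (w : F →+* F) ↔ w x ∈ O := Iff.rfl

theorem comapRestr_surjective (O : ValuationSubring F) (w : F ≃ₐ[K] F) :
    Function.Surjective (comapRestr O w) := by
  intro y
  refine ⟨⟨w.symm y, ?_⟩, Subtype.ext ?_⟩
  · rw [mem_comap_iff, AlgEquiv.apply_symm_apply]
    exact y.2
  · rw [coe_comapRestr]
    exact AlgEquiv.apply_symm_apply w y

theorem isUnit_comapRestr_iff (O : ValuationSubring F) (w : F ≃ₐ[K] F)
    (x : ↥(O.comap (w : F →+* F))) : IsUnit (comapRestr O w x) ↔ IsUnit x := by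
  constructor
  · intro h
    obtain ⟨u, hu⟩ := h
    have h1 : ((u : ↥O) : F) = w (x : F) := by rw [hu]; rfl
    have h2 : w.symm ((u⁻¹ : (↥O)ˣ) : ↥O) ∈ O.comap (w : F →+* F) := by
      rw [mem_comap_iff, AlgEquiv.apply_symm_apply]
      exact Subtype.mem _
    refine IsUnit.of_mul_eq_one ⟨w.symm ((u⁻¹ : (↥O)ˣ) : ↥O), h2⟩ ?_
    apply Subtype.ext
    show (x : F) * w.symm ((u⁻¹ : (↥O)ˣ) : ↥O) = 1
    apply w.injective
    rw [map_mul, AlgEquiv.apply_symm_apply, map_one, ← h1]
    have := congrArg Subtype.val u.mul_inv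
    exact this
  · intro h
    exact h.map (comapRestr O w)

/-- transport of a constant reduction along an automorphism of the function field. -/
def comapEquiv (S : ValSetup K F k Fk) (w : F ≃ₐ[K] F) : ValSetup K F k Fk where
  A := S.A
  Ov := S.Ov.comap (w : F →+* F)
  res := S.res
  ρ := S.ρ.comp (comapRestr S.Ov w)
  hF := S.hF
  hFk := S.hFk
  res_surj := S.res_surj
  ρ_surj := S.ρ_surj.comp (comapRestr_surjective S.Ov w)
  mem_Ov_iff c := by
    rw [mem_comap_iff, AlgEquiv.commutes]
    exact S.mem_Ov_iff c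
  ρ_algebraMap c hc hc' := by
    have h : algebraMap K F c ∈ S.Ov := (S.mem_Ov_iff c).mpr hc
    have e : comapRestr S.Ov w ⟨algebraMap K F c, hc'⟩ = ⟨algebraMap K F c, h⟩ :=
      Subtype.ext (AlgEquiv.commutes w c)
    rw [RingHom.comp_apply, e]
    exact S.ρ_algebraMap c hc h
  ρ_eq_zero_iff f := by
    rw [RingHom.comp_apply, S.ρ_eq_zero_iff, isUnit_comapRestr_iff]
  scale f hf := by
    obtain ⟨c, hc, h1, h2⟩ := S.scale (w f) ((map_ne_zero w).mpr hf)
    refine ⟨c, hc, ?_, ?_⟩
    · rw [mem_comap_iff, map_mul, map_inv₀, AlgEquiv.commutes]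
      exact h1
    · rw [mem_comap_iff, map_inv₀, map_mul, map_inv₀, AlgEquiv.commutes]
      exact h2

@[simp] theorem comapEquiv_A (S : ValSetup K F k Fk) (w : F ≃ₐ[K] F) :
    (comapEquiv S w).A = S.A := rfl

@[simp] theorem comapEquiv_res (S : ValSetup K F k Fk) (w : F ≃ₐ[K] F) :
    (comapEquiv S w).res = S.res := rfl

theorem mem_comapEquiv_Ov (S : ValSetup K F k Fk) (w : F ≃ₐ[K] F) (f : F) :
    f ∈ (comapEquiv S w).Ov ↔ w f ∈ S.Ov := Iff.rfl

/-- the reduction map of the transported reduction is `f ↦ red (w f)`. -/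
theorem comapEquiv_red (S : ValSetup K F k Fk) (w : F ≃ₐ[K] F) (f : F) :
    (comapEquiv S w).red f = S.red (w f) := by
  by_cases hf : w f ∈ S.Ov
  · rw [(comapEquiv S w).red_of_mem ((mem_comapEquiv_Ov S w f).mpr hf), S.red_of_mem hf]
    rfl
  · rw [(comapEquiv S w).red_of_not_mem (fun h => hf ((mem_comapEquiv_Ov S w f).mp h)),
      S.red_of_not_mem hf]

/-- the lattice property is transported. -/
theorem hasLattice_comapEquiv (S : ValSetup K F k Fk) (w : F ≃ₐ[K] F) (hL : HasLattice S) :
    HasLattice (comapEquiv S w) := by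
  intro W hW
  haveI := hW
  have hfin : FiniteDimensional K ↥(W.map (w : F →ₗ[K] F)) := inferInstance
  obtain ⟨n, u, huW, huO, hspan, hli⟩ := hL (W.map (w : F →ₗ[K] F)) hfin
  refine ⟨n, fun i => w.symm (u i), fun i => ?_, fun i => ?_, ?_, ?_⟩
  · obtain ⟨x, hx, hxu⟩ := huW i
    have : w.symm (u i) = x := by
      rw [← hxu]
      exact w.symm_apply_apply x
    show w.symm (u i) ∈ W
    rw [this]
    exact hx
  · show w.symm (u i) ∈ (comapEquiv S w).Ov
    rw [mem_comapEquiv_Ov, AlgEquiv.apply_symm_apply]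
    exact huO i
  · apply le_antisymm
    · rw [Submodule.span_le]
      rintro _ ⟨i, rfl⟩
      obtain ⟨x, hx, hxu⟩ := huW i
      have : w.symm (u i) = x := by
        rw [← hxu]
        exact w.symm_apply_apply x
      show w.symm (u i) ∈ W
      rw [this]
      exact hx
    · intro x hx
      have h1 : w x ∈ Submodule.span K (Set.range u) := by
        rw [hspan]
        exact ⟨x, hx, rfl⟩
      have h2 : w.symm (w x) ∈ (Submodule.span K (Set.range u)).map
          (w.symm : F →ₗ[K] F) := ⟨w x, h1, rfl⟩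
      rw [AlgEquiv.symm_apply_apply, Submodule.map_span] at h2
      have e : (⇑(w.symm : F →ₗ[K] F)) '' Set.range u = Set.range fun i => w.symm (u i) := by
        ext y
        constructor
        · rintro ⟨_, ⟨i, rfl⟩, rfl⟩
          exact ⟨i, rfl⟩
        · rintro ⟨i, rfl⟩
          exact ⟨u i, ⟨i, rfl⟩, rfl⟩
      rw [e] at h2
      exact h2
  · have e : (fun i => (comapEquiv S w).red (w.symm (u i))) = fun i => S.red (u i) := by
      funext i
      rw [comapEquiv_red, AlgEquiv.apply_symm_apply]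
    rw [e]
    exact hli

end Fermat.Agent.BadRed
end
end MergeWrap_Lib_BadRed_ValTransport

section MergeWrap_Lib_BadRed_Mod_ValZero -- from Lib/BadRed/Mod/ValZero.lean

set_option autoImplicit false

noncomputable section

namespace Fermat.Agent.AtkinLehner

open AlgebraicCurve ModularCurve Fermat.Agent.S24 Fermat.Agent.Deuring

/-- `w_Q` as a semilinear automorphism of the function field (trivial on the constants). -/
def wAut (D : ALData) : SemilinearAut Kbar (modularFunctionFieldBar (D.Q * D.R)) :=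
  SemilinearAut.ofAlgAut (atkinLehner D)

theorem wAut_smul (D : ALData) (x : modularFunctionFieldBar (D.Q * D.R)) :
    wAut D • x = atkinLehner D x := rfl

theorem wAut_mul_self (D : ALData) : wAut D * wAut D = 1 := by
  apply Subtype.ext
  refine Prod.ext (RingEquiv.ext fun x => ?_) rfl
  exact atkinLehner_atkinLehner D x

theorem wAut_inv (D : ALData) : (wAut D)⁻¹ = wAut D :=
  inv_eq_of_mul_eq_one_left (wAut_mul_self D)

/-- `w_Q` commutes with the Galois action (as semilinear automorphisms). -/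
theorem wAut_mul_arithmeticGalois (D : ALData) (σ : Kbar ≃ₐ[ℚ] Kbar) :
    wAut D * arithmeticGalois (modularFunctionFieldFull (D.Q * D.R)) σ =
      arithmeticGalois (modularFunctionFieldFull (D.Q * D.R)) σ * wAut D := by
  apply Subtype.ext
  refine Prod.ext (RingEquiv.ext fun x => ?_) ?_
  · exact atkinLehner_arithmeticRingAut D σ x
  · show (1 : RingAut Kbar) * σ.toRingEquiv = σ.toRingEquiv * 1
    rw [one_mul, mul_one]

/-- `ord_{w P} (f) = ord_P (w f)`. -/
theorem ord_wAut_smul (D : ALData) (P : Place Kbar (modularFunctionFieldBar (D.Q * D.R)))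
    (f : modularFunctionFieldBar (D.Q * D.R)) :
    (wAut D • P).ord f = P.ord (atkinLehner D f) := by
  have h := SemilinearAut.ord_smul (wAut D) P (atkinLehner D f)
  rw [wAut_smul, atkinLehner_atkinLehner] at h
  exact h

theorem wAut_smul_smul_place (D : ALData)
    (P : Place Kbar (modularFunctionFieldBar (D.Q * D.R))) : wAut D • wAut D • P = P := by
  rw [← mul_smul, wAut_mul_self, one_smul]

/-- `w_Q` commutes with the Galois action on places. -/
theorem wAut_smul_galois_place (D : ALData) (σ : Kbar ≃ₐ[ℚ] Kbar)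
    (P : Place Kbar (modularFunctionFieldBar (D.Q * D.R))) :
    wAut D • arithmeticGalois (modularFunctionFieldFull (D.Q * D.R)) σ • P =
      arithmeticGalois (modularFunctionFieldFull (D.Q * D.R)) σ • wAut D • P := by
  rw [← mul_smul, ← mul_smul, wAut_mul_arithmeticGalois]

/-- `w_Q` commutes with the Galois action on divisors. -/
theorem wAut_smul_galois_divisor (D : ALData) (σ : Kbar ≃ₐ[ℚ] Kbar)
    (E : Divisor Kbar (modularFunctionFieldBar (D.Q * D.R))) :
    wAut D • arithmeticGalois (modularFunctionFieldFull (D.Q * D.R)) σ • E =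
      arithmeticGalois (modularFunctionFieldFull (D.Q * D.R)) σ • wAut D • E := by
  rw [← mul_smul, ← mul_smul, wAut_mul_arithmeticGalois]

/-- **`w_Q` commutes with the Galois action on `J₀(N)`.** -/
theorem wAut_smul_galois (D : ALData) (σ : Kbar ≃ₐ[ℚ] Kbar) (x : JZero (D.Q * D.R)) :
    wAut D • (σ • x) = σ • (wAut D • x) := by
  show wAut D • arithmeticGalois (modularFunctionFieldFull (D.Q * D.R)) σ • x =
    arithmeticGalois (modularFunctionFieldFull (D.Q * D.R)) σ • wAut D • x
  rw [← mul_smul, ← mul_smul, wAut_mul_arithmeticGalois]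

/-- the Atkin–Lehner involution of `J₀(N)`. -/
def wJ (D : ALData) : JZero (D.Q * D.R) →+ JZero (D.Q * D.R) :=
  DistribSMul.toAddMonoidHom (JZero (D.Q * D.R)) (wAut D)

theorem wJ_apply (D : ALData) (x : JZero (D.Q * D.R)) : wJ D x = wAut D • x := rfl

theorem wJ_wJ (D : ALData) (x : JZero (D.Q * D.R)) : wJ D (wJ D x) = x := by
  rw [wJ_apply, wJ_apply, ← mul_smul, wAut_mul_self, one_smul]

theorem wJ_galois (D : ALData) (σ : Kbar ≃ₐ[ℚ] Kbar) (x : JZero (D.Q * D.R)) :
    wJ D (σ • x) = σ • wJ D x :=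
  wAut_smul_galois D σ x

theorem wJ_mk (D : ALData)
    (E : Divisor.degZero (K := Kbar) (F := modularFunctionFieldBar (D.Q * D.R))) :
    wJ D (Pic0.mk E) = Pic0.mk (SemilinearAut.degZeroSMulHom (wAut D) E) :=
  SemilinearAut.pic0_smul_mk (wAut D) E

/-! ### the second constant reduction `v_0 = v_∞ ∘ w_Q` -/

variable {k Fk : Type*} [Field k] [Field Fk] [Algebra k Fk]

/-- the constant reduction `v_0 = v_∞ ∘ w_Q` attached to a constant reduction `v_∞`. -/
def valSetupZero (D : ALData)
    (S : ValSetup Kbar (modularFunctionFieldBar (D.Q * D.R)) k Fk) :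
    ValSetup Kbar (modularFunctionFieldBar (D.Q * D.R)) k Fk :=
  Fermat.Agent.BadRed.comapEquiv S (atkinLehner D)

theorem valSetupZero_A (D : ALData)
    (S : ValSetup Kbar (modularFunctionFieldBar (D.Q * D.R)) k Fk) :
    (valSetupZero D S).A = S.A := rfl

theorem valSetupZero_res (D : ALData)
    (S : ValSetup Kbar (modularFunctionFieldBar (D.Q * D.R)) k Fk) :
    (valSetupZero D S).res = S.res := rfl

theorem mem_valSetupZero_Ov (D : ALData)
    (S : ValSetup Kbar (modularFunctionFieldBar (D.Q * D.R)) k Fk)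
    (f : modularFunctionFieldBar (D.Q * D.R)) :
    f ∈ (valSetupZero D S).Ov ↔ atkinLehner D f ∈ S.Ov := Iff.rfl

theorem valSetupZero_red (D : ALData)
    (S : ValSetup Kbar (modularFunctionFieldBar (D.Q * D.R)) k Fk)
    (f : modularFunctionFieldBar (D.Q * D.R)) :
    (valSetupZero D S).red f = S.red (atkinLehner D f) :=
  Fermat.Agent.BadRed.comapEquiv_red S (atkinLehner D) f

theorem hasLattice_valSetupZero (D : ALData)
    (S : ValSetup Kbar (modularFunctionFieldBar (D.Q * D.R)) k Fk) (hL : HasLattice S) :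
    HasLattice (valSetupZero D S) :=
  Fermat.Agent.BadRed.hasLattice_comapEquiv S (atkinLehner D) hL

/-- `w_Q` exchanges the two reductions. -/
theorem valSetupZero_red_atkinLehner (D : ALData)
    (S : ValSetup Kbar (modularFunctionFieldBar (D.Q * D.R)) k Fk)
    (f : modularFunctionFieldBar (D.Q * D.R)) :
    (valSetupZero D S).red (atkinLehner D f) = S.red f := by
  rw [valSetupZero_red, atkinLehner_atkinLehner]

end Fermat.Agent.AtkinLehner
end
end MergeWrap_Lib_BadRed_Mod_ValZero
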