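import Mathlib
import Fermat.Agent.MU.Lib.FF.RedCore
import Fermat.Agent.MU.Lib.BadRed.Nodal.RRNodal
import Fermat.Agent.MU.Lib.RR.Hurwitz.Count
import Fermat.Agent.MU.Lib.GoodRed.ModularGenus
import Fermat.Agent.MU.Lib.GenusEq.Main

section MergeWrap_Lib_BadRed_Mod_OldSep -- from Lib/BadRed/Mod/OldSep.lean

set_option autoImplicit false
set_option linter.style.haveILetI false

/-!
# Cluster T, MA6c (helper79): integral old functions with prescribed values on the special fibre

Abstract part (any constant reduction `S` with the LATTICE property and genus equality, and a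
base parameter `x ∈ Ov` with `deg (x)_∞ ≤ deg (x̄)_∞`, i.e. `[F : K(x)] = [F_k : k(x̄)]`):

* `oldSep_redDiv_poleDiv` : `r_* (x)_∞ = (x̄)_∞` (no cancellation between zeros and poles);
* `exists_integral_interpolation` : for every finite family of places `s i` of the special fibre
  at which `x̄` is regular and all values `c i ∈ k` there is `g ∈ Ov`, with poles only at the poles
  of `x`, whose reduction is regular off the poles of `x̄` and takes the value `c i` at `s i`.

Modular instance (`S₀ = GaussInt.modularValSetup A q N₀`, `q ∤ N₀`, `x = j`): `exists_oldSep`,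
`exists_oldSep_two`; genus equality is a hypothesis (`hg`), discharged for `q ∉ {2, 3}` and for
`4 ∣ N₀ ∨ 9 ∣ N₀` (`exists_oldSep_of_ne`, `exists_oldSep_of_dvd`).
-/

noncomputable section

open AlgebraicCurve IntermediateField Fermat.Agent.RR Fermat.Agent.Deuring Fermat.Agent.FF

namespace Fermat.Agent.BadRed

section Abstract

variable {K F k Fk : Type*} [Field K] [Field F] [Algebra K F]
  [Field k] [Field Fk] [Algebra k Fk]

/-- **No cancellation**: if `deg (x)_∞ ≤ deg (x̄)_∞` then `r_* (x)_∞ = (x̄)_∞`. -/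
theorem oldSep_redDiv_poleDiv {S : ValSetup K F k Fk} {r : Place K F → Place k Fk}
    (hr : IsReduction S r) {x : F} (hx : x ∈ S.Ov) (hx0 : S.red x ≠ 0)
    (hdeg : Divisor.degree (poleDiv S.hF x) ≤ Divisor.degree (poleDiv S.hFk (S.red x))) :
    redDiv r (poleDiv S.hF x) = poleDiv S.hFk (S.red x) := by
  have hxne : x ≠ 0 := S.ne_zero_of_red_ne_zero hx0
  have hinv : x⁻¹ ∈ S.Ov := S.inv_mem_of_red_ne_zero hx0
  have hpush := hr.redDiv_divOf_of_unit hx hinv hxne
  rw [fi_divOf_eq S.hF x, fi_divOf_eq S.hFk (S.red x), map_sub] at hpush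
  have hZ1 : 0 ≤ redDiv r (poleDiv S.hF x⁻¹) := redDiv_nonneg r (poleDiv_nonneg S.hF _)
  have hP1 : 0 ≤ redDiv r (poleDiv S.hF x) := redDiv_nonneg r (poleDiv_nonneg S.hF _)
  have hle : poleDiv S.hFk (S.red x) ≤ redDiv r (poleDiv S.hF x) := by
    rw [Finsupp.le_def]
    intro Q
    have hQ := DFunLike.congr_fun hpush Q
    rw [Finsupp.sub_apply, Finsupp.sub_apply] at hQ
    have h1 := hZ1 Q
    have h2 := hP1 Q
    rw [Finsupp.coe_zero, Pi.zero_apply] at h1 h2
    rw [poleDiv_apply] at hQ ⊢
    rw [poleDiv_apply, Place.ord_inv, neg_neg] at hQ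
    rcases le_total (Q.ord (S.red x)) 0 with h0 | h0
    · rw [max_eq_right h0, max_eq_left (by omega)] at hQ
      rw [max_eq_left (by omega)]
      omega
    · rw [max_eq_right (by omega)]
      exact h2
  refine (eq_of_le_of_degree_eq S.hFk hle (le_antisymm (degree_mono S.hFk hle) ?_)).symm
  rw [hr.degree_redDiv]
  exact hdeg

/-- **Integral interpolation**: integral functions with poles only at the poles of `x` take
arbitrary values at finitely many places of the special fibre at which `x̄` is regular. -/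
theorem exists_integral_interpolation (S : ValSetup K F k Fk) (hL : HasLattice S) [Infinite k]
    (hg : genusFF K F = genusFF k Fk) {x : F} (hx : x ∈ S.Ov)
    (htr : Transcendental k (S.red x))
    (hdeg : Divisor.degree (poleDiv S.hF x) ≤ Divisor.degree (poleDiv S.hFk (S.red x)))
    {ι : Type*} [Fintype ι] (s : ι → Place k Fk) (hs : Function.Injective s)
    (hreg : ∀ i, 0 ≤ (s i).ord (S.red x)) (c : ι → k) :
    ∃ g : F, g ∈ S.Ov ∧ (∀ v : Place K F, 0 ≤ v.ord x → 0 ≤ v.ord g) ∧
      (∀ Q : Place k Fk, 0 ≤ Q.ord (S.red x) → 0 ≤ Q.ord (S.red g)) ∧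
      ∀ i, ValAt (s i) (S.red g) (c i) := by
  obtain ⟨r, hr⟩ := exists_isReduction S hL hg
  have hx0 : S.red x ≠ 0 := by
    intro h0
    apply htr
    rw [h0]
    exact isAlgebraic_zero
  have hpole := oldSep_redDiv_poleDiv hr hx hx0 hdeg
  have hpos : 0 < Divisor.degree (poleDiv S.hFk (S.red x)) :=
    Fermat.Agent.RRHur.degree_poleDiv_pos S.hFk htr
  have hdegeq : Divisor.degree (poleDiv S.hF x) = Divisor.degree (poleDiv S.hFk (S.red x)) := by
    rw [← hpole, hr.degree_redDiv]
  set m : ℕ := 2 * genusFF K F + Fintype.card ι + 1 with hm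
  set B : Divisor K F := m • poleDiv S.hF x with hB
  have hredB : redDiv r B = m • poleDiv S.hFk (S.red x) := by
    rw [hB, map_nsmul, hpole]
  have hdegB : Divisor.degree B = m * Divisor.degree (poleDiv S.hFk (S.red x)) := by
    rw [hB, map_nsmul, hdegeq, nsmul_eq_mul]
  have hmle : (m : ℤ) ≤ Divisor.degree B := by
    rw [hdegB]
    have : (0 : ℤ) ≤ m := Int.natCast_nonneg m
    nlinarith
  have hB2g : 2 * (genusFF K F : ℤ) ≤ Divisor.degree B := by
    refine le_trans ?_ hmle
    rw [hm]
    push_cast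
    omega
  -- interpolation on the special fibre
  have hRs : ∀ i, (redDiv r B) (s i) = 0 := by
    intro i
    rw [hredB, Finsupp.smul_apply, poleDiv_apply, max_eq_right (by have := hreg i; omega),
      smul_zero]
  have hdegI : 2 * (genusFF k Fk : ℤ) - 2 <
      Divisor.degree (redDiv r B) - Fintype.card ι := by
    rw [hr.degree_redDiv, ← hg]
    have : (m : ℤ) = 2 * (genusFF K F : ℤ) + Fintype.card ι + 1 := by
      rw [hm]
      push_cast
      ring
    omega
  obtain ⟨a, ha, hval⟩ := exists_interpolation S.hFk s hs (redDiv r B) hRs hdegI c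
  obtain ⟨g, hgB, hgO, hga⟩ := hr.exists_lift hB2g ha
  refine ⟨g, hgO, fun v hv => ?_, fun Q hQ => ?_, fun i => ?_⟩
  · rcases (mem_riemannRochSpace_iff.mp hgB) v with rfl | h
    · rw [Place.ord_zero]
    · rw [hB, Finsupp.smul_apply, poleDiv_apply, max_eq_right (by omega), smul_zero,
        neg_zero] at h
      exact h
  · rw [hga]
    refine ord_nonneg_of_mem_of_apply_eq_zero ?_ ha
    rw [hredB, Finsupp.smul_apply, poleDiv_apply, max_eq_right (by omega), smul_zero]
  · rw [hga]
    exact hval i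

end Abstract

section Modular

set_option synthInstance.maxHeartbeats 400000

open ModularCurve Fermat.Agent.GaussInt

local notation "Qb" => AlgebraicClosure ℚ

variable (A : ValuationSubring Qb) (q N₀ : ℕ) [NeZero N₀]
  (hq : q.Prime) (hA : A.LiesOverPrime q) (hqN : ¬ q ∣ N₀)

/-- `j` is integral for the Gauss valuation. -/
theorem oldSep_jBar_mem :
    Fermat.Agent.S24.jBar N₀ ∈ (modularValSetup A q N₀ hq hA hqN).Ov :=
  Fermat.Agent.GoodRed.jBar_mem_gaussValSub N₀ hq hA

/-- the reduction of `j` is `j̄`. -/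
theorem oldSep_red_jBar :
    (modularValSetup A q N₀ hq hA hqN).red (Fermat.Agent.S24.jBar N₀) =
      Fermat.Agent.RRMod.jC (IsLocalRing.ResidueField A) N₀ := by
  apply Subtype.ext
  rw [coe_modularValSetup_red A q N₀ hq hA hqN
    ((mem_modularValSetup_Ov_iff A q N₀ hq hA hqN _).mp
      (oldSep_jBar_mem A q N₀ hq hA hqN)),
    Fermat.Agent.GoodRed.gaussResFun_jBar N₀]
  rfl

/-- `deg (j)_∞ = [SL₂(ℤ) : Γ₀(N₀)]` on the generic fibre. -/
theorem oldSep_degree_poleDiv_jBar :
    Divisor.degree (poleDiv (Fermat.Agent.RRMod.isRRField_bar N₀) (Fermat.Agent.S24.jBar N₀)) =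
      ((CongruenceSubgroup.Gamma0 N₀).index : ℤ) := by
  haveI : FiniteDimensional Qb⟮Fermat.Agent.S24.jBar N₀⟯ ↥(modularFunctionFieldBar N₀) :=
    (Fermat.Agent.S24.isFunctionFieldOver_jBar N₀).finite
  rw [Fermat.Agent.RRHur.degree_poleDiv_eq_finrank _ (Fermat.Agent.S24.transcendental_jBar N₀),
    Fermat.Agent.GoodRedBranch.finrank_jBar N₀]

/-- `deg (j̄)_∞ = [SL₂(ℤ) : Γ₀(N₀)]` on the special fibre, `q ∤ N₀`. -/
theorem oldSep_degree_poleDiv_jC :
    Divisor.degree (poleDiv (modularValSetup A q N₀ hq hA hqN).hFk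
        (Fermat.Agent.RRMod.jC (IsLocalRing.ResidueField A) N₀)) =
      ((CongruenceSubgroup.Gamma0 N₀).index : ℤ) := by
  haveI := isAlgClosed_residue A
  have hfin := Fermat.Agent.GoodRed.finrank_modularRedModel_xbar N₀ hq hA
    (Fermat.Agent.GoodRed.rangeAt N₀ hq hA hqN) hqN
  rw [Fermat.Agent.GoodRed.modularRedModel_xbar] at hfin
  haveI : FiniteDimensional
      (IsLocalRing.ResidueField A)⟮Fermat.Agent.RRMod.jC (IsLocalRing.ResidueField A) N₀⟯
      ↥(modularFunctionFieldFullC (IsLocalRing.ResidueField A) N₀) :=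
    Module.finite_of_finrank_pos (by
      rw [hfin]
      exact Fermat.Agent.GoodRed.index_Gamma0_pos N₀)
  rw [Fermat.Agent.RRHur.degree_poleDiv_eq_finrank _
    (Fermat.Agent.RRMod.transcendental_jC (IsLocalRing.ResidueField A) N₀), hfin]

/-- **MA6c** (general form): integral old functions `g₀ ∈ F_{N₀}` with poles only at the cusps,
with prescribed values at finitely many non-cuspidal places of the reduction of `X₀(N₀)` at
`q ∤ N₀`. -/
theorem exists_oldSep
    (hg : genusFF Qb (modularFunctionFieldBar N₀) =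
      genusFF (IsLocalRing.ResidueField A)
        (modularFunctionFieldFullC (IsLocalRing.ResidueField A) N₀))
    {ι : Type*} [Fintype ι]
    (s : ι → Place (IsLocalRing.ResidueField A)
      (modularFunctionFieldFullC (IsLocalRing.ResidueField A) N₀))
    (hs : Function.Injective s)
    (hreg : ∀ i, 0 ≤ (s i).ord (Fermat.Agent.RRMod.jC (IsLocalRing.ResidueField A) N₀))
    (c : ι → IsLocalRing.ResidueField A) :
    ∃ g₀ : modularFunctionFieldBar N₀, g₀ ∈ (modularValSetup A q N₀ hq hA hqN).Ov ∧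
      (∀ v : Place Qb (modularFunctionFieldBar N₀),
        0 ≤ v.ord (Fermat.Agent.S24.jBar N₀) → 0 ≤ v.ord g₀) ∧
      (∀ Q : Place (IsLocalRing.ResidueField A)
          (modularFunctionFieldFullC (IsLocalRing.ResidueField A) N₀),
        0 ≤ Q.ord (Fermat.Agent.RRMod.jC (IsLocalRing.ResidueField A) N₀) →
          0 ≤ Q.ord ((modularValSetup A q N₀ hq hA hqN).red g₀)) ∧
      ∀ i, ValAt (s i) ((modularValSetup A q N₀ hq hA hqN).red g₀) (c i) := by
  haveI := isAlgClosed_residue A
  haveI := infinite_residue A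
  have hred := oldSep_red_jBar A q N₀ hq hA hqN
  have htr : Transcendental (IsLocalRing.ResidueField A)
      ((modularValSetup A q N₀ hq hA hqN).red (Fermat.Agent.S24.jBar N₀)) := by
    rw [hred]
    exact Fermat.Agent.RRMod.transcendental_jC (IsLocalRing.ResidueField A) N₀
  have hdeg : Divisor.degree (poleDiv (modularValSetup A q N₀ hq hA hqN).hF
        (Fermat.Agent.S24.jBar N₀)) ≤
      Divisor.degree (poleDiv (modularValSetup A q N₀ hq hA hqN).hFk
        ((modularValSetup A q N₀ hq hA hqN).red (Fermat.Agent.S24.jBar N₀))) := by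
    rw [hred]
    exact ((oldSep_degree_poleDiv_jBar N₀).trans (oldSep_degree_poleDiv_jC A q N₀ hq hA hqN).symm).le
  have hreg' : ∀ i, 0 ≤ (s i).ord
      ((modularValSetup A q N₀ hq hA hqN).red (Fermat.Agent.S24.jBar N₀)) := by
    intro i
    rw [hred]
    exact hreg i
  obtain ⟨g, hgO, hpoles, hregbar, hval⟩ :=
    exists_integral_interpolation (modularValSetup A q N₀ hq hA hqN)
      (hasLattice_modularValSetup A q N₀ hq hA hqN) hg
      (oldSep_jBar_mem A q N₀ hq hA hqN) htr hdeg s hs hreg' c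
  refine ⟨g, hgO, hpoles, fun Q hQ => hregbar Q ?_, hval⟩
  rw [hred]
  exact hQ

/-- **MA6c** (two points): an integral old function separating two non-cuspidal places of the
reduction. -/
theorem exists_oldSep_two
    (hg : genusFF Qb (modularFunctionFieldBar N₀) =
      genusFF (IsLocalRing.ResidueField A)
        (modularFunctionFieldFullC (IsLocalRing.ResidueField A) N₀))
    {Q Q' : Place (IsLocalRing.ResidueField A)
      (modularFunctionFieldFullC (IsLocalRing.ResidueField A) N₀)} (hQQ' : Q ≠ Q')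
    (hQ : 0 ≤ Q.ord (Fermat.Agent.RRMod.jC (IsLocalRing.ResidueField A) N₀))
    (hQ' : 0 ≤ Q'.ord (Fermat.Agent.RRMod.jC (IsLocalRing.ResidueField A) N₀)) :
    ∃ g₀ : modularFunctionFieldBar N₀, g₀ ∈ (modularValSetup A q N₀ hq hA hqN).Ov ∧
      (∀ v : Place Qb (modularFunctionFieldBar N₀),
        0 ≤ v.ord (Fermat.Agent.S24.jBar N₀) → 0 ≤ v.ord g₀) ∧
      (∀ R : Place (IsLocalRing.ResidueField A)
          (modularFunctionFieldFullC (IsLocalRing.ResidueField A) N₀),
        0 ≤ R.ord (Fermat.Agent.RRMod.jC (IsLocalRing.ResidueField A) N₀) →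
          0 ≤ R.ord ((modularValSetup A q N₀ hq hA hqN).red g₀)) ∧
      ValAt Q ((modularValSetup A q N₀ hq hA hqN).red g₀) 0 ∧
      ValAt Q' ((modularValSetup A q N₀ hq hA hqN).red g₀) 1 := by
  obtain ⟨g, h1, h2, h3, h4⟩ := exists_oldSep A q N₀ hq hA hqN hg
    (fun b : Bool => if b then Q' else Q)
    (by
      intro a b hab
      cases a <;> cases b <;> simp_all)
    (by
      intro b
      cases b
      · simpa using hQ
      · simpa using hQ')
    (fun b : Bool => if b then 1 else 0)
  refine ⟨g, h1, h2, h3, ?_, ?_⟩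
  · simpa using h4 false
  · simpa using h4 true

/-- MA6c for `q ∉ {2, 3}` (genus equality from cluster B). -/
theorem exists_oldSep_of_ne (h2 : q ≠ 2) (h3 : q ≠ 3)
    {ι : Type*} [Fintype ι]
    (s : ι → Place (IsLocalRing.ResidueField A)
      (modularFunctionFieldFullC (IsLocalRing.ResidueField A) N₀))
    (hs : Function.Injective s)
    (hreg : ∀ i, 0 ≤ (s i).ord (Fermat.Agent.RRMod.jC (IsLocalRing.ResidueField A) N₀))
    (c : ι → IsLocalRing.ResidueField A) :
    ∃ g₀ : modularFunctionFieldBar N₀, g₀ ∈ (modularValSetup A q N₀ hq hA hqN).Ov ∧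
      (∀ v : Place Qb (modularFunctionFieldBar N₀),
        0 ≤ v.ord (Fermat.Agent.S24.jBar N₀) → 0 ≤ v.ord g₀) ∧
      (∀ Q : Place (IsLocalRing.ResidueField A)
          (modularFunctionFieldFullC (IsLocalRing.ResidueField A) N₀),
        0 ≤ Q.ord (Fermat.Agent.RRMod.jC (IsLocalRing.ResidueField A) N₀) →
          0 ≤ Q.ord ((modularValSetup A q N₀ hq hA hqN).red g₀)) ∧
      ∀ i, ValAt (s i) ((modularValSetup A q N₀ hq hA hqN).red g₀) (c i) :=
  exists_oldSep A q N₀ hq hA hqN
    (Fermat.Agent.GoodRed.genusFF_modular_eq N₀ hq hA hqN h2 h3) s hs hreg c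

/-- MA6c for levels divisible by `4` or by `9` (genus equality from `GenusEq`). -/
theorem exists_oldSep_of_dvd (h49 : 4 ∣ N₀ ∨ 9 ∣ N₀)
    {ι : Type*} [Fintype ι]
    (s : ι → Place (IsLocalRing.ResidueField A)
      (modularFunctionFieldFullC (IsLocalRing.ResidueField A) N₀))
    (hs : Function.Injective s)
    (hreg : ∀ i, 0 ≤ (s i).ord (Fermat.Agent.RRMod.jC (IsLocalRing.ResidueField A) N₀))
    (c : ι → IsLocalRing.ResidueField A) :
    ∃ g₀ : modularFunctionFieldBar N₀, g₀ ∈ (modularValSetup A q N₀ hq hA hqN).Ov ∧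
      (∀ v : Place Qb (modularFunctionFieldBar N₀),
        0 ≤ v.ord (Fermat.Agent.S24.jBar N₀) → 0 ≤ v.ord g₀) ∧
      (∀ Q : Place (IsLocalRing.ResidueField A)
          (modularFunctionFieldFullC (IsLocalRing.ResidueField A) N₀),
        0 ≤ Q.ord (Fermat.Agent.RRMod.jC (IsLocalRing.ResidueField A) N₀) →
          0 ≤ Q.ord ((modularValSetup A q N₀ hq hA hqN).red g₀)) ∧
      ∀ i, ValAt (s i) ((modularValSetup A q N₀ hq hA hqN).red g₀) (c i) :=
  exists_oldSep A q N₀ hq hA hqN
    (Fermat.Agent.GenusEq.genusFF_eq N₀ h49 q hq hqN A hA) s hs hreg c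

end Modular

end Fermat.Agent.BadRed
end
end MergeWrap_Lib_BadRed_Mod_OldSep
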