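import Mathlib
import Fermat.Prelude.Def_ModularCurve_ArithmeticGalois
import Fermat.Agent.Lib.BadRed.Mod.SSDefs
import Fermat.Agent.MU.Lib.IgusaDeg.UMem
import Fermat.Agent.Lib.Kronecker.Formal

section MergeWrap_Lib_BadRed_Mod_UParamSeries -- from Lib/BadRed/Mod/UParamSeries.lean

set_option autoImplicit false

noncomputable section

namespace Fermat.Agent.BadRed

open ModularCurve Fermat.Agent.S28

/-- The integral power series `E(t) / E(t^q)`, `E = ∏ (1 - t^n)^24`. -/
def uParE (q : ℕ) : PowerSeries ℤ :=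
  dedekindEtaUnit * (wp10_expand q dedekindEtaUnit).invOfUnit 1

theorem constantCoeff_expand_eta (q : ℕ) :
    PowerSeries.constantCoeff (wp10_expand q dedekindEtaUnit) = 1 := by
  rw [wp10_constantCoeff_expand, constantCoeff_dedekindEtaUnit]

theorem constantCoeff_uParE (q : ℕ) : PowerSeries.constantCoeff (uParE q) = 1 := by
  rw [uParE, map_mul, constantCoeff_dedekindEtaUnit, one_mul,
    wp10_constantCoeff_invOfUnit (constantCoeff_expand_eta q)]

theorem uParE_mul_expand (q : ℕ) :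
    uParE q * wp10_expand q dedekindEtaUnit = dedekindEtaUnit := by
  rw [uParE, mul_assoc, mul_comm ((wp10_expand q dedekindEtaUnit).invOfUnit 1),
    PowerSeries.mul_invOfUnit _ 1 (by rw [constantCoeff_expand_eta]; rfl), mul_one]

/-- **The `q`-expansion of `u = Δ(z) / Δ(qz)`**, with integral coefficients, over any ring. -/
def uSer (R : Type*) [CommRing R] (q : ℕ) : LaurentSeries R :=
  wp10_mk R (-((q : ℤ) - 1)) (uParE q)

section Ring

variable (R : Type*) [CommRing R] (q : ℕ)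

theorem uSer_isMonicUnit : wp10_IsMonicUnit R (uSer R q) (-((q : ℤ) - 1)) :=
  ⟨uParE q, constantCoeff_uParE q, rfl⟩

theorem uSer_ne_zero [Nontrivial R] : uSer R q ≠ 0 := (uSer_isMonicUnit R q).ne_zero

theorem coeffMap_uSer {S : Type*} [CommRing S] (f : R →+* S) :
    coeffMap f (uSer R q) = uSer S q :=
  wp10_coeffMap_mk f _ _

/-- the leading coefficient of `u` is `1`, at `t^{-(q-1)}`. -/
theorem coeff_uSer_self : (uSer R q).coeff (-((q : ℤ) - 1)) = 1 :=
  wp10_mk_coeff_self _ (constantCoeff_uParE q)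

theorem coeff_uSer_of_lt {m : ℤ} (hm : m < -((q : ℤ) - 1)) : (uSer R q).coeff m = 0 :=
  wp10_mk_coeff_of_lt _ _ hm

/-- `u · Δ(t^q) = Δ(t)`. -/
theorem uSer_mul_qExpand [NeZero q] :
    uSer R q * qExpand R q (wp10_DeltaF R) = wp10_DeltaF R := by
  rw [uSer, wp10_DeltaF, wp10_qExpand_mk, wp10_mk_mul, uParE_mul_expand]
  congr 1
  ring

end Ring

section Field

variable (K : Type*) [Field K] (q : ℕ) [NeZero q]

theorem qExpand_DeltaF_ne_zero : qExpand K q (wp10_DeltaF K) ≠ 0 :=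
  ((wp10_isMonicUnit_DeltaF (R := K)).qExpand q).ne_zero

/-- `u = Δ(t) / Δ(t^q)`. -/
theorem uSer_eq_div : uSer K q = wp10_DeltaF K / qExpand K q (wp10_DeltaF K) := by
  rw [eq_div_iff (qExpand_DeltaF_ne_zero K q), uSer_mul_qExpand]

theorem uSer_inv : (uSer K q)⁻¹ = qExpand K q (wp10_DeltaF K) / wp10_DeltaF K := by
  rw [uSer_eq_div, inv_div]

/-- **`u ∈ K(j(t^d) : d ∣ N)`** for `q ∣ N`, `N` invertible in `K`. -/
theorem uSer_mem [PerfectField K] (N : ℕ) [NeZero N] (hN : (N : K) ≠ 0) (hq : q ∣ N) :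
    uSer K q ∈ modularFunctionFieldFullC K N := by
  have h := Fermat.Agent.IgusaDeg.delta_ratio_mem K N hN q hq
  rw [← uSer_inv] at h
  have h2 := inv_mem h
  rwa [inv_inv] at h2

end Field

section CharQ

variable (k : Type*) [CommRing k] (q : ℕ) [Fact q.Prime] [CharP k q]

/-- in characteristic `q`: `Δ(t^q) = Δ(t)^q`. -/
theorem qExpand_DeltaF_eq_pow : qExpand k q (wp10_DeltaF k) = wp10_DeltaF k ^ q := by
  rw [Fermat.Agent.Kronecker.pow_char_eq_qExpand_frobenius q, wp10_coeffMap_DeltaF]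

/-- **The reduction of `u` mod `q` is `Δ̄^{-(q-1)}`**: in characteristic `q`, `uSer = ssFun`. -/
theorem uSer_eq_ssFun : uSer k q = ssFun k q := by
  have : NeZero q := ⟨(Fact.out : q.Prime).ne_zero⟩
  have hq1 : 1 ≤ q := (Fact.out : q.Prime).pos
  -- `Δ ^ q` is a unit of `k((t))`
  have hΔ : wp10_DeltaF k * wp10_mk k (-1) dedekindEtaUnitInv = 1 := by
    rw [wp10_DeltaF, wp10_mk_mul, add_neg_cancel, dedekindEtaUnit_mul_inv, wp10_mk_zero_one]
  have hss : ssFun k q = wp10_mk k (-1) dedekindEtaUnitInv ^ (q - 1) := by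
    have e : (-((q : ℤ) - 1)) = ((q - 1 : ℕ) : ℤ) * (-1) := by
      rw [Nat.cast_sub hq1]; push_cast; ring
    rw [wp10_mk_pow, ← e]
    rfl
  have h1 : uSer k q * wp10_DeltaF k ^ q = wp10_DeltaF k := by
    rw [← qExpand_DeltaF_eq_pow, uSer_mul_qExpand]
  have h2 : ssFun k q * wp10_DeltaF k ^ q = wp10_DeltaF k := by
    rw [hss]
    calc wp10_mk k (-1) dedekindEtaUnitInv ^ (q - 1) * wp10_DeltaF k ^ q
        = (wp10_DeltaF k * wp10_mk k (-1) dedekindEtaUnitInv) ^ (q - 1) * wp10_DeltaF k := by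
          rw [mul_pow]
          conv_lhs => rw [show q = (q - 1) + 1 by omega, pow_succ]
          simp only [Nat.add_sub_cancel]
          ring
      _ = wp10_DeltaF k := by rw [hΔ, one_pow, one_mul]
  have hunit : wp10_DeltaF k ^ q * wp10_mk k (-1) dedekindEtaUnitInv ^ q = 1 := by
    rw [← mul_pow, hΔ, one_pow]
  calc uSer k q = uSer k q * (wp10_DeltaF k ^ q * wp10_mk k (-1) dedekindEtaUnitInv ^ q) := by
        rw [hunit, mul_one]
    _ = ssFun k q * (wp10_DeltaF k ^ q * wp10_mk k (-1) dedekindEtaUnitInv ^ q) := by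
        rw [← mul_assoc, h1, ← mul_assoc, h2]
    _ = ssFun k q := by rw [hunit, mul_one]

end CharQ

section Bar

variable (N q : ℕ) [NeZero N] [NeZero q]

/-- `u ∈ F_N` over `ℚ̄`, `q ∣ N`. -/
theorem uSer_mem_bar (hq : q ∣ N) :
    uSer (AlgebraicClosure ℚ) q ∈ modularFunctionFieldBar N := by
  have h := uSer_mem ℚ q N (by exact_mod_cast NeZero.ne N) hq
  rw [modularFunctionFieldFullC_rat] at h
  have h2 := coeffEmb_mem_laurentBaseChange (AlgebraicClosure ℚ) h
  rwa [coeffEmb, coeffMap_uSer] at h2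

/-- **`u = Δ(z) / Δ(qz)` as an element of the function field `F_N` of `X₀(N)` over `ℚ̄`**,
`q ∣ N`. -/
def uF (hq : q ∣ N) : modularFunctionFieldBar N :=
  ⟨uSer (AlgebraicClosure ℚ) q, uSer_mem_bar N q hq⟩

theorem coe_uF (hq : q ∣ N) :
    ((uF N q hq : modularFunctionFieldBar N) : LaurentSeries (AlgebraicClosure ℚ)) =
      uSer (AlgebraicClosure ℚ) q := rfl

theorem uF_ne_zero (hq : q ∣ N) : uF N q hq ≠ 0 := by
  intro h
  have h2 := congrArg (fun x : modularFunctionFieldBar N =>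
    (x : LaurentSeries (AlgebraicClosure ℚ))) h
  exact uSer_ne_zero (AlgebraicClosure ℚ) q h2

end Bar

end Fermat.Agent.BadRed
end
end MergeWrap_Lib_BadRed_Mod_UParamSeries
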