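import Fermat.Agent.MU.Lib.BadRed.Bridge.Assembly
import Fermat.Agent.MU.Lib.BadRed.Mod.UParamSeries
import Fermat.Agent.Lib.BadRed.Mod.SSDefs

section MergeWrap_Lib_BadRed_Mod_GaussSetup -- from Lib/BadRed/Mod/GaussSetup.lean

set_option autoImplicit false

/-!
# Cluster T, modular assembly: the interface `IsGaussSetup`  (architect helper81)

Definitions only.  `IsGaussSetup N N₀ A S` : the constant reduction `S` of `F_N / ℚ̄` is the GAUSS
valuation at `A` (integral `q`-expansions, reduction of the coefficients), with residue function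
field `F_k(N₀) = modularFunctionFieldFullC k N₀`.

* for `q ∤ N` : `N₀ = N`, `S = GaussInt.modularValSetup` (cluster B);
* for `q ∥ N = q N₀` : `S = ` the setup `v_∞` of `Lib/BadRed/TwoExtModular` (M1, helper50).

All the modular leaves of the assembly (`Mod/*`) are stated for an arbitrary `S` with
`IsGaussSetup`, so that they do not depend on the construction of `S`.
-/

noncomputable section

namespace Fermat.Agent.BadRed

open ModularCurve AlgebraicCurve Fermat.Agent.F3 Fermat.Agent.F3G Fermat.Agent.GaussInt
  Fermat.Agent.AtkinLehner Fermat.Agent.Deuring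

local notation "Qb" => AlgebraicClosure ℚ

/-- `S` is the Gauss constant reduction of `F_N` at `A`, with residue function field
`F_k(N₀)`. -/
structure IsGaussSetup (N N₀ : ℕ) [NeZero N] [NeZero N₀] (A : ValuationSubring Qb)
    (S : ValSetup Qb (FBar N) (IsLocalRing.ResidueField A)
      (modularFunctionFieldFullC (IsLocalRing.ResidueField A) N₀)) : Prop where
  A_eq : S.A = A
  res_eq : ∀ (c : Qb) (h : c ∈ S.A) (h' : c ∈ A), S.res ⟨c, h⟩ = IsLocalRing.residue A ⟨c, h'⟩
  mem_iff : ∀ f : FBar N,
    f ∈ S.Ov ↔ (f : LaurentSeries Qb) ∈ gaussSub A (modularFunctionFieldBar N)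
  coe_red : ∀ f : FBar N, f ∈ S.Ov →
    ((S.red f : modularFunctionFieldFullC (IsLocalRing.ResidueField A) N₀) :
        LaurentSeries (IsLocalRing.ResidueField A)) =
      gaussResFun A (modularFunctionFieldBar N) (f : LaurentSeries Qb)

end Fermat.Agent.BadRed
end
end MergeWrap_Lib_BadRed_Mod_GaussSetup
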