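import Mathlib
import Fermat.Agent.MU.Lib.BadRed.Mod.UParamSeries
import Fermat.Agent.MU.S24.JFun

section MergeWrap_Lib_BadRed_Mod_UParamFun -- from Lib/BadRed/Mod/UParamFun.lean

set_option autoImplicit false

noncomputable section

namespace Fermat.Agent.BadRed

open Filter Topology Set Function Complex UpperHalfPlane ModularForm
open Fermat.Agent.S23Converse Fermat.Agent.S24JFun Fermat.Agent.S24 ModularCurve Fermat.Agent.S28
open scoped Manifold MatrixGroups

local notation "𝕢" => Periodic.qParam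

/-! ### functions of `q` that are holomorphic on the unit disc -/

/-- `τ ↦ F (q(τ))` is good, for `F` holomorphic on the unit disc. -/
theorem isGood_of_disc {F : ℂ → ℂ} (hF : DifferentiableOn ℂ F (Metric.ball (0 : ℂ) 1)) :
    IsGood (fun τ : ℍ => F (𝕢 1 τ)) where
  periodic := by
    intro w
    have e1 : (w + ((1 : ℝ) : ℂ)) = w + 1 := by simp
    rw [e1]
    by_cases hw : 0 < im w
    · have hw1 : 0 < im (w + 1) := by simpa using hw
      simp only [comp_apply, ofComplex_apply_of_im_pos hw1, ofComplex_apply_of_im_pos hw]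
      congr 1
      exact qParam_add_one w
    · have hw' : im w ≤ 0 := not_lt.mp hw
      have hw1 : im (w + 1) ≤ 0 := by simpa using hw'
      simp only [comp_apply, ofComplex_apply_of_im_nonpos hw1, ofComplex_apply_of_im_nonpos hw']
  holo := by
    rw [UpperHalfPlane.mdifferentiable_iff]
    have h1 : DifferentiableOn ℂ (F ∘ (𝕢 1)) upperHalfPlaneSet := by
      refine hF.comp (Periodic.differentiable_qParam).differentiableOn ?_
      intro z hz
      simpa using Periodic.norm_qParam_lt_one one_pos (show 0 < z.im from hz)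
    refine h1.congr fun z hz => ?_
    simp [ofComplex_apply_of_im_pos hz]
  bdd := by
    have h0 : ContinuousAt F 0 :=
      (hF.differentiableAt (Metric.ball_mem_nhds 0 one_pos)).continuousAt
    have h : Tendsto (fun τ : ℍ => F (𝕢 1 τ)) atImInfty (𝓝 (F 0)) :=
      h0.tendsto.comp (qParam_tendsto_atImInfty one_pos)
    exact h.isBigO_one ℝ

theorem pow_mem_ball {z : ℂ} (hz : z ∈ Metric.ball (0 : ℂ) 1) {q : ℕ} (hq : q ≠ 0) :
    z ^ q ∈ Metric.ball (0 : ℂ) 1 := by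
  rw [mem_ball_zero_iff] at hz ⊢
  rw [norm_pow]
  exact pow_lt_one₀ (norm_nonneg _) hz hq

/-- `z ↦ E(z^q)`, `E = ∏ (1 - z^n)^24`. -/
def discEQ (q : ℕ) (z : ℂ) : ℂ := eulerFun (z ^ q) ^ 24

/-- `z ↦ E(z) / E(z^q)`. -/
def discG (q : ℕ) (z : ℂ) : ℂ := eulerFun z ^ 24 * (eulerFun (z ^ q) ^ 24)⁻¹

theorem differentiableOn_discEQ {q : ℕ} (hq : q ≠ 0) :
    DifferentiableOn ℂ (discEQ q) (Metric.ball (0 : ℂ) 1) := by
  have h1 : DifferentiableOn ℂ (fun z : ℂ => eulerFun (z ^ q)) (Metric.ball (0 : ℂ) 1) :=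
    differentiableOn_eulerFun.comp (differentiable_pow q).differentiableOn
      fun z hz => pow_mem_ball hz hq
  exact h1.pow 24

theorem discEQ_ne_zero {q : ℕ} (hq : q ≠ 0) {z : ℂ} (hz : z ∈ Metric.ball (0 : ℂ) 1) :
    discEQ q z ≠ 0 := by
  have h := pow_mem_ball hz hq
  rw [mem_ball_zero_iff] at h
  exact pow_ne_zero _ (eulerFun_ne_zero h)

theorem differentiableOn_discG {q : ℕ} (hq : q ≠ 0) :
    DifferentiableOn ℂ (discG q) (Metric.ball (0 : ℂ) 1) :=
  (differentiableOn_eulerFun.pow 24).mul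
    ((differentiableOn_discEQ hq).inv fun _ hz => discEQ_ne_zero hq hz)

theorem discG_mul_discEQ {q : ℕ} (hq : q ≠ 0) {z : ℂ} (hz : z ∈ Metric.ball (0 : ℂ) 1) :
    discG q z * discEQ q z = eulerFun z ^ 24 := by
  have h := discEQ_ne_zero hq hz
  unfold discG
  unfold discEQ at h ⊢
  rw [mul_assoc, inv_mul_cancel₀ h, mul_one]

/-! ### the three functions on `ℍ` -/

/-- `τ ↦ E(q^q)`. -/
def eulerQ (q : ℕ) : ℍ → ℂ := fun τ => discEQ q (𝕢 1 τ)

/-- `τ ↦ E(q) / E(q^q) = u(τ) q^{q-1}`. -/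
def uRed (q : ℕ) : ℍ → ℂ := fun τ => discG q (𝕢 1 τ)

theorem isGood_eulerQ {q : ℕ} (hq : q ≠ 0) : IsGood (eulerQ q) :=
  isGood_of_disc (differentiableOn_discEQ hq)

theorem isGood_uRed {q : ℕ} (hq : q ≠ 0) : IsGood (uRed q) :=
  isGood_of_disc (differentiableOn_discG hq)

theorem qParam_mem_ball (τ : ℍ) : 𝕢 1 (τ : ℂ) ∈ Metric.ball (0 : ℂ) 1 := by
  rw [mem_ball_zero_iff]
  exact Periodic.norm_qParam_lt_one one_pos τ.im_pos

theorem uRed_mul_eulerQ {q : ℕ} (hq : q ≠ 0) : uRed q * eulerQ q = eulerH ^ 24 := by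
  funext τ
  exact discG_mul_discEQ hq (qParam_mem_ball τ)

/-! ### the expansions -/

theorem qExpansion_eulerH_pow :
    qExpansion 1 (eulerH ^ 24) = PowerSeries.map (Int.castRingHom ℂ) dedekindEtaUnit := by
  rw [isGood_eulerH.qExpansion_pow, qExpansion_eulerH, dedekindEtaUnit, map_pow]

theorem hasSum_eulerH_pow (τ : ℍ) :
    HasSum (fun m : ℕ => ((PowerSeries.coeff m dedekindEtaUnit : ℤ) : ℂ) • 𝕢 1 τ ^ m)
      (eulerH τ ^ 24) := by
  have hg := isGood_eulerH.pow 24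
  have h := hasSum_qExpansion one_pos hg.periodic hg.holo hg.bdd τ
  rw [qExpansion_eulerH_pow] at h
  simpa [PowerSeries.coeff_map] using h

theorem qParam_scale (q : ℕ) [NeZero q] (τ : ℍ) :
    𝕢 1 ((scale q τ : ℍ) : ℂ) = 𝕢 1 (τ : ℂ) ^ q := by
  have h := uParam_one_scale 1 q τ
  simpa [uParam] using h

theorem eulerQ_eq (q : ℕ) [NeZero q] (τ : ℍ) : eulerQ q τ = eulerH (scale q τ) ^ 24 := by
  unfold eulerQ discEQ eulerH
  rw [qParam_scale]

theorem hasSum_eulerQ (q : ℕ) [NeZero q] (τ : ℍ) :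
    HasSum (fun n : ℕ =>
      ((PowerSeries.coeff n (wp10_expand q dedekindEtaUnit) : ℤ) : ℂ) • 𝕢 1 τ ^ n)
      (eulerQ q τ) := by
  have h := hasSum_eulerH_pow (scale q τ)
  rw [← eulerQ_eq, qParam_scale] at h
  have hinj : Function.Injective (fun j : ℕ => q * j) :=
    fun a b hab => Nat.eq_of_mul_eq_mul_left (Nat.pos_of_ne_zero (NeZero.ne q)) hab
  rw [← hinj.hasSum_iff]
  · have e : ((fun n : ℕ =>
          ((PowerSeries.coeff n (wp10_expand q dedekindEtaUnit) : ℤ) : ℂ) • 𝕢 1 (τ : ℂ) ^ n) ∘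
          fun j : ℕ => q * j)
        = fun m : ℕ => ((PowerSeries.coeff m dedekindEtaUnit : ℤ) : ℂ) • (𝕢 1 (τ : ℂ) ^ q) ^ m := by
      funext j
      simp only [Function.comp_apply]
      rw [wp10_coeff_expand, if_pos (Nat.dvd_mul_right q j),
        Nat.mul_div_cancel_left j (Nat.pos_of_ne_zero (NeZero.ne q)), pow_mul]
    rw [e]
    exact h
  · intro n hn
    have hqn : ¬ q ∣ n := by
      rintro ⟨j, rfl⟩
      exact hn ⟨j, rfl⟩
    rw [wp10_coeff_expand, if_neg hqn, Int.cast_zero, zero_smul]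

theorem qExpansion_eulerQ (q : ℕ) [NeZero q] :
    qExpansion 1 (eulerQ q) =
      PowerSeries.map (Int.castRingHom ℂ) (wp10_expand q dedekindEtaUnit) := by
  ext m
  rw [qExpansion_coeff_unique_fun (isGood_eulerQ (NeZero.ne q)).analyticAt (hasSum_eulerQ q) m,
    PowerSeries.coeff_map]
  simp

theorem qExpansion_uRed (q : ℕ) [NeZero q] :
    qExpansion 1 (uRed q) = PowerSeries.map (Int.castRingHom ℂ) (uParE q) := by
  have hq := NeZero.ne q
  have h1 : qExpansion 1 (uRed q) * qExpansion 1 (eulerQ q) = qExpansion 1 (eulerH ^ 24) := by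
    rw [← (isGood_uRed hq).qExpansion_mul (isGood_eulerQ hq), uRed_mul_eulerQ hq]
  rw [qExpansion_eulerQ, qExpansion_eulerH_pow] at h1
  have h2 : PowerSeries.map (Int.castRingHom ℂ) (uParE q) *
      PowerSeries.map (Int.castRingHom ℂ) (wp10_expand q dedekindEtaUnit) =
      PowerSeries.map (Int.castRingHom ℂ) dedekindEtaUnit := by
    rw [← map_mul, uParE_mul_expand]
  have h3 : PowerSeries.map (Int.castRingHom ℂ) (wp10_expand q dedekindEtaUnit) ≠ 0 := by
    intro h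
    have := congrArg (PowerSeries.constantCoeff (R := ℂ)) h
    rw [← PowerSeries.coeff_zero_eq_constantCoeff_apply, PowerSeries.coeff_map,
      PowerSeries.coeff_zero_eq_constantCoeff_apply, constantCoeff_expand_eta] at this
    simp at this
  exact mul_right_cancel₀ h3 (h1.trans h2.symm)

theorem hasSum_uRed (q : ℕ) [NeZero q] (τ : ℍ) :
    HasSum (fun m : ℕ => ((PowerSeries.coeff m (uParE q) : ℤ) : ℂ) • 𝕢 1 τ ^ m) (uRed q τ) := by
  have hg := isGood_uRed (NeZero.ne q)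
  have h := hasSum_qExpansion one_pos hg.periodic hg.holo hg.bdd τ
  rw [qExpansion_uRed] at h
  simpa [PowerSeries.coeff_map] using h

/-! ### the function `u` -/

/-- **`u(τ) = Δ(τ) / Δ(q τ)`.** -/
def uFn (q : ℕ) [NeZero q] : Fun :=
  fun τ => ModularForm.discriminant τ / ModularForm.discriminant (scale q τ)

theorem uFn_apply (q : ℕ) [NeZero q] (τ : ℍ) :
    uFn q τ = ModularForm.discriminant τ / ModularForm.discriminant (scale q τ) := rfl

theorem uFn_ne_zero (q : ℕ) [NeZero q] (τ : ℍ) : uFn q τ ≠ 0 :=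
  div_ne_zero (ModularForm.discriminant_ne_zero τ) (ModularForm.discriminant_ne_zero _)

theorem uFn_mul_pow (q : ℕ) [NeZero q] (τ : ℍ) :
    uFn q τ * uParam 1 τ ^ (q - 1) = uRed q τ := by
  have hq1 : 1 ≤ q := Nat.pos_of_ne_zero (NeZero.ne q)
  have hu : uParam 1 τ = 𝕢 1 (τ : ℂ) := by simp [uParam]
  have h0 : 𝕢 1 (τ : ℂ) ≠ 0 := Periodic.qParam_ne_zero _
  have h1 := discEQ_ne_zero (NeZero.ne q) (qParam_mem_ball τ)
  have h2 : eulerH (scale q τ) ^ 24 = discEQ q (𝕢 1 (τ : ℂ)) := (eulerQ_eq q τ).symm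
  rw [uFn_apply, discriminant_eq_q_mul_eulerH τ, discriminant_eq_q_mul_eulerH (scale q τ),
    qParam_scale, h2, hu]
  unfold uRed discG
  change _ = eulerFun (𝕢 1 (τ : ℂ)) ^ 24 * (discEQ q (𝕢 1 (τ : ℂ)))⁻¹
  unfold eulerH
  have h3 : 𝕢 1 (τ : ℂ) ^ q = 𝕢 1 (τ : ℂ) * 𝕢 1 (τ : ℂ) ^ (q - 1) := by
    rw [← pow_succ', Nat.sub_add_cancel hq1]
  rw [h3]
  have h4 : 𝕢 1 (τ : ℂ) ^ (q - 1) ≠ 0 := pow_ne_zero _ h0
  field_simp

/-- `u(τ) q^{q-1} = ∑ (uParE q)ₙ qⁿ`, absolutely convergent on `ℍ`. -/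
theorem hasPExp_uFn (q : ℕ) [NeZero q] :
    HasPExp 1 (fun τ => uFn q τ * uParam 1 τ ^ (q - 1))
      (PowerSeries.map (Int.castRingHom Kbar) (uParE q)) := by
  intro τ
  have h := hasSum_uRed q τ
  have e1 : uParam 1 τ = 𝕢 1 (τ : ℂ) := by simp [uParam]
  have e2 : ∀ n : ℕ, iota (PowerSeries.coeff n
      (PowerSeries.map (Int.castRingHom Kbar) (uParE q)))
      = ((PowerSeries.coeff n (uParE q) : ℤ) : ℂ) := by
    intro n
    rw [PowerSeries.coeff_map]
    simp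
  beta_reduce
  rw [uFn_mul_pow]
  simp only [e1, e2]
  refine ⟨?_, by simpa [smul_eq_mul] using h⟩
  have := h.summable.norm
  simpa [norm_mul, norm_pow, smul_eq_mul] using this

/-- **The `q`-expansion of `u = Δ(τ) / Δ(qτ)` is `uSer`.** -/
theorem hasExp_uFn (q : ℕ) [NeZero q] : HasExp 1 (uFn q) (uSer Kbar q) := by
  have hq1 : 1 ≤ q := Nat.pos_of_ne_zero (NeZero.ne q)
  refine ⟨q - 1, PowerSeries.map (Int.castRingHom Kbar) (uParE q), ?_, hasPExp_uFn q⟩
  have e : (-((q : ℤ) - 1)) = -((q - 1 : ℕ) : ℤ) := by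
    rw [Nat.cast_sub hq1]; push_cast; ring
  rw [uSer, e]
  rfl

end Fermat.Agent.BadRed
end
end MergeWrap_Lib_BadRed_Mod_UParamFun
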