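import Mathlib
import Fermat.Agent.Lib.RR.Riemann
import Fermat.Agent.MU.Lib.Deuring.Basic
import Fermat.Agent.MU.Lib.BadRed.Nodal.Deuring2.FI2
import Fermat.Agent.MU.Lib.BadRed.Nodal.Deuring2.Seed
import Fermat.Agent.MU.Lib.Deuring.RedSpace
import Fermat.Agent.MU.Lib.BadRed.Mod.SeedNodeA
import Fermat.Agent.MU.Lib.BadRed.Mod.SeedNodeC
import Fermat.Agent.MU.Lib.BadRed.Nodal.Deuring2.RRExist
import Fermat.Agent.MU.Lib.RR.Hurwitz.Count

section MergeWrap_Lib_BadRed_Mod_SeedPoles -- from Lib/BadRed/Mod/SeedPoles.lean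

/-!
# Cluster T, piece M2p (helper19): the POLE bounds of the seed

Abstract setting: two constant reductions `S₁ : ValSetup K F k Fk₁`, `S₂ : ValSetup K F k Fk₂` over
the same valuation ring `A` of `K` (same residue map), `k` infinite, with the two-valuation
fundamental inequality

  (FI2)  `g ∈ O₁ ∩ O₂ ⟹ deg (red₁ g)_∞ + deg (red₂ g)_∞ ≤ deg (g)_∞`

(taken as a hypothesis), and `x ∈ O₁ ∩ O₂` for which (FI2) is an equality:
`deg (x)_∞ ≤ deg (red₁ x)_∞ + deg (red₂ x)_∞`.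

**Theorem** `seed_pole_bounds`: for every `m` and every `f ∈ L(m (x)_∞) ∩ O₁ ∩ O₂`,
`red₁ f ∈ L(m (red₁ x)_∞)` and `red₂ f ∈ L(m (red₂ x)_∞)`.

Proof: apply (FI2) to `g = c x^m + f` with `c ∈ A` of generic residue: `(g)_∞ ≤ m (x)_∞`, and
pointwise `(red_i g)_∞ ≥ max (m (red_i x)_∞) ((red_i f)_∞)`.

For `X₀(q N₀)`, `x = j`: `red₁ j = j̄`, `red₂ j = j̄ ^ q` (`poleDiv_pow`), degrees
`ψ(q N₀) = ψ(N₀) + q ψ(N₀)`.
-/

set_option autoImplicit false

noncomputable section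

open AlgebraicCurve Fermat.Agent.RR Fermat.Agent.Deuring WithZero

namespace Fermat.Agent.BadRed.SeedPoles

section OneCurve

variable {k E : Type*} [Field k] [Field E] [Algebra k E]

theorem adicValuation_algebraMap_eq_one (Q : Place k E) {c : k} (hc : c ≠ 0) :
    Q.adicValuation (algebraMap k E c) = 1 := by
  apply le_antisymm (Q.adicValuation_algebraMap_le_one c)
  have h1 := Q.adicValuation_algebraMap_le_one c⁻¹
  rw [map_inv₀, map_inv₀] at h1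
  have hne : Q.adicValuation (algebraMap k E c) ≠ 0 :=
    Q.adicValuation_ne_zero (by
      rw [Ne, map_eq_zero_iff _ (algebraMap k E).injective]
      exact hc)
  exact (inv_le_one₀ (zero_lt_iff.mpr hne)).mp h1

theorem adicValuation_smul (Q : Place k E) {c : k} (hc : c ≠ 0) (u : E) :
    Q.adicValuation (c • u) = Q.adicValuation u := by
  rw [Algebra.smul_def, map_mul, adicValuation_algebraMap_eq_one Q hc, one_mul]

theorem adicValuation_smul_le (Q : Place k E) (c : k) (u : E) :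
    Q.adicValuation (c • u) ≤ Q.adicValuation u := by
  rcases eq_or_ne c 0 with rfl | hc
  · rw [zero_smul, map_zero]
    exact zero_le
  · rw [adicValuation_smul Q hc]

/-- **generic constants, one place**: if `u`, `v` have valuation `≤ γ` at `Q`, one of them with
equality, then `c u + v` has valuation exactly `γ` for all constants `c` but at most one. -/
theorem exists_bad (Q : Place k E) (u v : E) (γ : ℤᵐ⁰) (hu : Q.adicValuation u ≤ γ)
    (hv : Q.adicValuation v ≤ γ) (h1 : Q.adicValuation u = γ ∨ Q.adicValuation v = γ) :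
    ∃ c₀ : k, ∀ c : k, c ≠ c₀ → Q.adicValuation (c • u + v) = γ := by
  rcases lt_or_eq_of_le hu with hu' | hu'
  · have hv' : Q.adicValuation v = γ := h1.resolve_left hu'.ne
    refine ⟨0, fun c _ => ?_⟩
    have h2 : Q.adicValuation (c • u) < Q.adicValuation v := by
      rw [hv']
      exact lt_of_le_of_lt (adicValuation_smul_le Q c u) hu'
    rw [Valuation.map_add_eq_of_lt_right _ h2, hv']
  · rcases lt_or_eq_of_le hv with hv' | hv'
    · refine ⟨0, fun c hc => ?_⟩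
      have h2 : Q.adicValuation v < Q.adicValuation (c • u) := by
        rwa [adicValuation_smul Q hc, hu']
      rw [Valuation.map_add_eq_of_lt_left _ h2, adicValuation_smul Q hc, hu']
    · by_cases hex : ∃ c₀ : k, Q.adicValuation (c₀ • u + v) < γ
      · obtain ⟨c₀, hc₀⟩ := hex
        refine ⟨c₀, fun c hc => ?_⟩
        have e : c • u + v = (c - c₀) • u + (c₀ • u + v) := by
          rw [sub_smul]
          abel
        have hcc : c - c₀ ≠ 0 := sub_ne_zero.mpr hc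
        have h2 : Q.adicValuation (c₀ • u + v) < Q.adicValuation ((c - c₀) • u) := by
          rwa [adicValuation_smul Q hcc, hu']
        rw [e, Valuation.map_add_eq_of_lt_left _ h2, adicValuation_smul Q hcc, hu']
      · have hex' : ∀ c₀ : k, γ ≤ Q.adicValuation (c₀ • u + v) := fun c₀ =>
          not_lt.mp fun hlt => hex ⟨c₀, hlt⟩
        refine ⟨0, fun c _ => le_antisymm ?_ (hex' c)⟩
        exact (Valuation.map_add _ _ _).trans
          (max_le ((adicValuation_smul_le Q c u).trans hu) hv)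

variable (h : IsRRField k E)

theorem poleDiv_apply_nonneg (w : E) (Q : Place k E) : 0 ≤ poleDiv h w Q := by
  rw [poleDiv_apply]
  exact le_max_right _ _

theorem poleDiv_le_iff (w : E) (Q : Place k E) {n : ℤ} (hn : 0 ≤ n) :
    poleDiv h w Q ≤ n ↔ Q.adicValuation w ≤ exp n := by
  rw [poleDiv_apply, Q.adicValuation_le_exp_iff]
  constructor
  · intro h1
    right
    have := le_max_left (-(Q.ord w)) 0
    omega
  · rintro (rfl | h1)
    · rw [Q.ord_zero]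
      exact max_le (by omega) hn
    · exact max_le (by omega) hn

theorem adicValuation_eq_of_poleDiv_eq (w : E) (Q : Place k E) {n : ℤ} (hn : 0 < n)
    (hw : poleDiv h w Q = n) : Q.adicValuation w = exp n := by
  rw [poleDiv_apply] at hw
  have hw0 : w ≠ 0 := by
    rintro rfl
    rw [Q.ord_zero] at hw
    simp at hw
    omega
  rw [Q.adicValuation_eq_exp_neg_ord hw0]
  congr 1
  rcases max_cases (-(Q.ord w)) 0 with ⟨h1, _⟩ | ⟨h1, _⟩ <;> omega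

theorem le_poleDiv_of_adicValuation_eq (w : E) (Q : Place k E) {n : ℤ}
    (hV : Q.adicValuation w = exp n) : n ≤ poleDiv h w Q := by
  have hw0 : w ≠ 0 := by
    rintro rfl
    rw [map_zero] at hV
    exact exp_ne_zero hV.symm
  rw [Q.adicValuation_eq_exp_neg_ord hw0, exp_inj] at hV
  rw [poleDiv_apply]
  have := le_max_left (-(Q.ord w)) 0
  omega

/-- **generic constants, all places**: for all constants `c` outside a finite set,
`(c u + v)_∞ ≥ max (u)_∞ (v)_∞`. -/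
theorem exists_finite_bad (u v : E) :
    ∃ B : Finset k, ∀ c : k, c ∉ B → ∀ Q : Place k E,
      max (poleDiv h u Q) (poleDiv h v Q) ≤ poleDiv h (c • u + v) Q := by
  classical
  have key : ∀ Q : Place k E, ∃ c₀ : k, ∀ c : k, c ≠ c₀ →
      max (poleDiv h u Q) (poleDiv h v Q) ≤ poleDiv h (c • u + v) Q := by
    intro Q
    have he0 : 0 ≤ max (poleDiv h u Q) (poleDiv h v Q) :=
      le_max_of_le_left (poleDiv_apply_nonneg h u Q)
    rcases he0.eq_or_lt with h0 | hpos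
    · exact ⟨0, fun c _ => by rw [← h0]; exact poleDiv_apply_nonneg h _ Q⟩
    · have hu : Q.adicValuation u ≤ exp (max (poleDiv h u Q) (poleDiv h v Q)) :=
        (poleDiv_le_iff h u Q he0).mp (le_max_left _ _)
      have hv : Q.adicValuation v ≤ exp (max (poleDiv h u Q) (poleDiv h v Q)) :=
        (poleDiv_le_iff h v Q he0).mp (le_max_right _ _)
      have h1 : Q.adicValuation u = exp (max (poleDiv h u Q) (poleDiv h v Q)) ∨
          Q.adicValuation v = exp (max (poleDiv h u Q) (poleDiv h v Q)) := by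
        rcases max_cases (poleDiv h u Q) (poleDiv h v Q) with ⟨h2, _⟩ | ⟨h2, _⟩
        · left
          exact adicValuation_eq_of_poleDiv_eq h u Q hpos h2.symm
        · right
          exact adicValuation_eq_of_poleDiv_eq h v Q hpos h2.symm
      obtain ⟨c₀, hc₀⟩ := exists_bad Q u v _ hu hv h1
      exact ⟨c₀, fun c hc => le_poleDiv_of_adicValuation_eq h _ Q (hc₀ c hc)⟩
  choose c₀ hc₀ using key
  refine ⟨((poleDiv h u).support ∪ (poleDiv h v).support).image c₀, fun c hc Q => ?_⟩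
  by_cases hQ : Q ∈ (poleDiv h u).support ∪ (poleDiv h v).support
  · exact hc₀ Q c fun hcc => hc (Finset.mem_image.mpr ⟨Q, hQ, hcc.symm⟩)
  · rw [Finset.mem_union, not_or, Finsupp.notMem_support_iff, Finsupp.notMem_support_iff] at hQ
    rw [hQ.1, hQ.2, max_self]
    exact poleDiv_apply_nonneg h _ Q

/-- `(y ^ n)_∞ = n (y)_∞`. -/
theorem poleDiv_pow (y : E) (n : ℕ) : poleDiv h (y ^ n) = n • poleDiv h y := by
  ext Q
  rw [Finsupp.smul_apply, poleDiv_apply, poleDiv_apply, ← zpow_natCast, Q.ord_zpow,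
    nsmul_eq_mul, mul_max_of_nonneg _ _ (Int.natCast_nonneg n), mul_zero, mul_neg]

/-- the pole divisor of an element of `L(D)`, `D ≥ 0`, is at most `D`. -/
theorem poleDiv_le_of_mem {D : Divisor k E} (hD : 0 ≤ D) {f : E}
    (hf : f ∈ riemannRochSpace D) : poleDiv h f ≤ D := by
  rw [Finsupp.le_def]
  intro v
  rw [poleDiv_apply]
  have h0 : 0 ≤ D v := by
    have := (Finsupp.le_def.mp hD) v
    simpa using this
  rcases (mem_riemannRochSpace_iff.mp hf) v with h1 | h1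
  · rw [h1, v.ord_zero]
    simpa using h0
  · exact max_le (by omega) h0

/-- `f ∈ L(D)` as soon as `(f)_∞ ≤ D`. -/
theorem mem_of_poleDiv_le {D : Divisor k E} {f : E} (hf : poleDiv h f ≤ D) :
    f ∈ riemannRochSpace D :=
  riemannRochSpace_mono hf (mem_riemannRochSpace_poleDiv h f)

theorem pow_mem_riemannRochSpace (x : E) (m : ℕ) :
    x ^ m ∈ riemannRochSpace (m • poleDiv h x) := by
  apply mem_of_poleDiv_le h
  rw [poleDiv_pow]

end OneCurve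

section Main

variable {K F k Fk₁ Fk₂ : Type*} [Field K] [Field F] [Algebra K F]
  [Field k] [Field Fk₁] [Algebra k Fk₁] [Field Fk₂] [Algebra k Fk₂]

theorem red_smul_pow_add {Fk : Type*} [Field Fk] [Algebra k Fk] (S : ValSetup K F k Fk) {c : K}
    (hc : c ∈ S.A) {x f : F} (hx : x ∈ S.Ov) (hf : f ∈ S.Ov) (m : ℕ) :
    c • x ^ m + f ∈ S.Ov ∧
      S.red (c • x ^ m + f) = S.res ⟨c, hc⟩ • (S.red x) ^ m + S.red f := by
  have h1 : x ^ m ∈ S.Ov := pow_mem hx m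
  have h2 : c • x ^ m ∈ S.Ov := S.smul_mem hc h1
  refine ⟨add_mem h2 hf, ?_⟩
  rw [S.red_add h2 hf, S.red_smul hc h1, S.red_pow hx]

/-- the core of the argument: ONE test function `g` with
`(g)_∞ ≤ m (x)_∞`, `(red_i g)_∞ ≥ max (m (red_i x)_∞) ((red_i f)_∞)` and (FI2) for `g`. -/
theorem pole_bounds_of_test (h : IsRRField K F) (h₁ : IsRRField k Fk₁) (h₂ : IsRRField k Fk₂)
    {x g : F} {x₁ f₁ g₁ : Fk₁} {x₂ f₂ g₂ : Fk₂} (m : ℕ)
    (hFI2 : Divisor.degree (poleDiv h₁ g₁) + Divisor.degree (poleDiv h₂ g₂)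
      ≤ Divisor.degree (poleDiv h g))
    (hdeg : Divisor.degree (poleDiv h x) ≤
      Divisor.degree (poleDiv h₁ x₁) + Divisor.degree (poleDiv h₂ x₂))
    (hg : g ∈ riemannRochSpace (m • poleDiv h x))
    (hg₁ : ∀ Q, max ((m • poleDiv h₁ x₁) Q) (poleDiv h₁ f₁ Q) ≤ poleDiv h₁ g₁ Q)
    (hg₂ : ∀ Q, max ((m • poleDiv h₂ x₂) Q) (poleDiv h₂ f₂ Q) ≤ poleDiv h₂ g₂ Q) :
    f₁ ∈ riemannRochSpace (m • poleDiv h₁ x₁) ∧ f₂ ∈ riemannRochSpace (m • poleDiv h₂ x₂) := by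
  have hD0 : 0 ≤ m • poleDiv h x := nsmul_nonneg (poleDiv_nonneg h x) m
  have hgle : poleDiv h g ≤ m • poleDiv h x := poleDiv_le_of_mem h hD0 hg
  have hdg : Divisor.degree (poleDiv h g) ≤ m * Divisor.degree (poleDiv h x) := by
    have := degree_mono h hgle
    rwa [map_nsmul, nsmul_eq_mul] at this
  -- the divisors `E_i = max (m (x_i)_∞) ((f_i)_∞)`
  have hE₁ : (m • poleDiv h₁ x₁) ⊔ poleDiv h₁ f₁ ≤ poleDiv h₁ g₁ := by
    rw [Finsupp.le_def]
    intro Q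
    rw [Finsupp.sup_apply]
    exact hg₁ Q
  have hE₂ : (m • poleDiv h₂ x₂) ⊔ poleDiv h₂ f₂ ≤ poleDiv h₂ g₂ := by
    rw [Finsupp.le_def]
    intro Q
    rw [Finsupp.sup_apply]
    exact hg₂ Q
  have hd₁ := degree_mono h₁ hE₁
  have hd₂ := degree_mono h₂ hE₂
  have hl₁ : Divisor.degree (m • poleDiv h₁ x₁)
      ≤ Divisor.degree ((m • poleDiv h₁ x₁) ⊔ poleDiv h₁ f₁) := degree_mono h₁ le_sup_left
  have hl₂ : Divisor.degree (m • poleDiv h₂ x₂)
      ≤ Divisor.degree ((m • poleDiv h₂ x₂) ⊔ poleDiv h₂ f₂) := degree_mono h₂ le_sup_left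
  have hm₁ : Divisor.degree (m • poleDiv h₁ x₁) = m * Divisor.degree (poleDiv h₁ x₁) := by
    rw [map_nsmul, nsmul_eq_mul]
  have hm₂ : Divisor.degree (m • poleDiv h₂ x₂) = m * Divisor.degree (poleDiv h₂ x₂) := by
    rw [map_nsmul, nsmul_eq_mul]
  have hmul : (m : ℤ) * Divisor.degree (poleDiv h x) ≤
      m * (Divisor.degree (poleDiv h₁ x₁) + Divisor.degree (poleDiv h₂ x₂)) :=
    mul_le_mul_of_nonneg_left hdeg (Int.natCast_nonneg m)
  have e₁ : Divisor.degree (m • poleDiv h₁ x₁)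
      = Divisor.degree ((m • poleDiv h₁ x₁) ⊔ poleDiv h₁ f₁) := by
    apply le_antisymm hl₁
    rw [hm₁] at hl₁ ⊢
    rw [hm₂] at hl₂
    linarith
  have e₂ : Divisor.degree (m • poleDiv h₂ x₂)
      = Divisor.degree ((m • poleDiv h₂ x₂) ⊔ poleDiv h₂ f₂) := by
    apply le_antisymm hl₂
    rw [hm₂] at hl₂ ⊢
    rw [hm₁] at hl₁
    linarith
  have E₁ := eq_of_le_of_degree_eq h₁ le_sup_left e₁
  have E₂ := eq_of_le_of_degree_eq h₂ le_sup_left e₂
  constructor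
  · apply mem_of_poleDiv_le h₁
    rw [E₁]
    exact le_sup_right
  · apply mem_of_poleDiv_le h₂
    rw [E₂]
    exact le_sup_right

/-- **M2p, the pole bounds of the seed.** -/
theorem seed_pole_bounds [Infinite k] (S₁ : ValSetup K F k Fk₁) (S₂ : ValSetup K F k Fk₂)
    (hA : S₁.A = S₂.A)
    (hres : ∀ (c : K) (h₁ : c ∈ S₁.A) (h₂ : c ∈ S₂.A), S₁.res ⟨c, h₁⟩ = S₂.res ⟨c, h₂⟩)
    (hFI2 : ∀ g : F, g ∈ S₁.Ov → g ∈ S₂.Ov →
      Divisor.degree (poleDiv S₁.hFk (S₁.red g)) + Divisor.degree (poleDiv S₂.hFk (S₂.red g))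
        ≤ Divisor.degree (poleDiv S₁.hF g))
    {x : F} (hx₁ : x ∈ S₁.Ov) (hx₂ : x ∈ S₂.Ov)
    (hdeg : Divisor.degree (poleDiv S₁.hF x) ≤
      Divisor.degree (poleDiv S₁.hFk (S₁.red x)) + Divisor.degree (poleDiv S₂.hFk (S₂.red x)))
    (m : ℕ) {f : F} (hf : f ∈ riemannRochSpace (m • poleDiv S₁.hF x))
    (hf₁ : f ∈ S₁.Ov) (hf₂ : f ∈ S₂.Ov) :
    S₁.red f ∈ riemannRochSpace (m • poleDiv S₁.hFk (S₁.red x)) ∧
      S₂.red f ∈ riemannRochSpace (m • poleDiv S₂.hFk (S₂.red x)) := by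
  classical
  obtain ⟨B₁, hB₁⟩ := exists_finite_bad S₁.hFk ((S₁.red x) ^ m) (S₁.red f)
  obtain ⟨B₂, hB₂⟩ := exists_finite_bad S₂.hFk ((S₂.red x) ^ m) (S₂.red f)
  obtain ⟨cbar, hcbar⟩ := Infinite.exists_notMem_finset (B₁ ∪ B₂)
  rw [Finset.mem_union, not_or] at hcbar
  obtain ⟨⟨c, hc₁⟩, hc⟩ := S₁.res_surj cbar
  have hc₂ : c ∈ S₂.A := hA ▸ hc₁
  have hc' : S₂.res ⟨c, hc₂⟩ = cbar := by rw [← hres c hc₁ hc₂, hc]
  obtain ⟨hgO₁, hgr₁⟩ := red_smul_pow_add S₁ hc₁ hx₁ hf₁ m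
  obtain ⟨hgO₂, hgr₂⟩ := red_smul_pow_add S₂ hc₂ hx₂ hf₂ m
  rw [hc] at hgr₁
  rw [hc'] at hgr₂
  refine pole_bounds_of_test S₁.hF S₁.hFk S₂.hFk m (hFI2 _ hgO₁ hgO₂) hdeg ?_ ?_ ?_
  · exact add_mem (Submodule.smul_mem _ c (pow_mem_riemannRochSpace S₁.hF x m)) hf
  · intro Q
    rw [hgr₁, ← poleDiv_pow]
    exact hB₁ cbar hcbar.1 Q
  · intro Q
    rw [hgr₂, ← poleDiv_pow]
    exact hB₂ cbar hcbar.2 Q

end Main

end Fermat.Agent.BadRed.SeedPoles
end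
end MergeWrap_Lib_BadRed_Mod_SeedPoles

section MergeWrap_Lib_BadRed_Mod_SeedOfX -- from Lib/BadRed/Mod/SeedOfX.lean

/-!
# Cluster T, piece M2p (helper19): the seed attached to one function `x`

`C : NodalCore K F k Fk₁ Fk₂ ι` with incomparable valuation rings, `k` infinite, `x ∈ O₁ ∩ O₂` with
`deg (red₁ x)_∞ + deg (red₂ x)_∞ = deg (x)_∞`.  Then, with `D₀ = (x)_∞`, `R_i = (red_i x)_∞`:

* `seed_pole_bounds_fi2` : `red_i (L(m D₀) ∩ O₁ ∩ O₂) ⊆ L(m R_i)` (no hypothesis (FI2): it is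
  `fi2_degree_le` of helper80);
* `mem_nodalRR_of_node`  : the `seed` field of `NodalSeed` from the NODE condition (piece M2);
* `NodalCore.seedOfX`    : the `NodalSeed` itself.

For `X₀(q N₀)`: `x = j`, `red₁ j = j̄`, `red₂ j = j̄ ^ q`.
-/

set_option autoImplicit false

noncomputable section

open AlgebraicCurve Fermat.Agent.RR Fermat.Agent.Deuring

namespace Fermat.Agent.BadRed.SeedPoles

variable {K F k Fk₁ Fk₂ : Type*} [Field K] [Field F] [Algebra K F]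
  [Field k] [Field Fk₁] [Algebra k Fk₁] [Field Fk₂] [Algebra k Fk₂]

/-- **M2p** with (FI2) discharged: the pole bounds of the seed for incomparable valuation
rings. -/
theorem seed_pole_bounds_fi2 [Infinite k] (S₁ : ValSetup K F k Fk₁) (S₂ : ValSetup K F k Fk₂)
    (hA : S₁.A = S₂.A)
    (hres : ∀ (c : K) (h₁ : c ∈ S₁.A) (h₂ : c ∈ S₂.A), S₁.res ⟨c, h₁⟩ = S₂.res ⟨c, h₂⟩)
    (h12 : ¬ S₁.Ov ≤ S₂.Ov) (h21 : ¬ S₂.Ov ≤ S₁.Ov)
    {x : F} (hx₁ : x ∈ S₁.Ov) (hx₂ : x ∈ S₂.Ov)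
    (hdeg : Divisor.degree (poleDiv S₁.hF x) ≤
      Divisor.degree (poleDiv S₁.hFk (S₁.red x)) + Divisor.degree (poleDiv S₂.hFk (S₂.red x)))
    (m : ℕ) {f : F} (hf : f ∈ riemannRochSpace (m • poleDiv S₁.hF x))
    (hf₁ : f ∈ S₁.Ov) (hf₂ : f ∈ S₂.Ov) :
    S₁.red f ∈ riemannRochSpace (m • poleDiv S₁.hFk (S₁.red x)) ∧
      S₂.red f ∈ riemannRochSpace (m • poleDiv S₂.hFk (S₂.red x)) :=
  seed_pole_bounds S₁ S₂ hA hres
    (fun _ hg₁ hg₂ => fi2_degree_le S₁ S₂ hA hres h12 h21 hg₁ hg₂) hx₁ hx₂ hdeg m hf hf₁ hf₂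

/-- (FI2) is an equality for `x` as soon as `≥` holds. -/
theorem degree_poleDiv_eq (S₁ : ValSetup K F k Fk₁) (S₂ : ValSetup K F k Fk₂)
    (hA : S₁.A = S₂.A)
    (hres : ∀ (c : K) (h₁ : c ∈ S₁.A) (h₂ : c ∈ S₂.A), S₁.res ⟨c, h₁⟩ = S₂.res ⟨c, h₂⟩)
    (h12 : ¬ S₁.Ov ≤ S₂.Ov) (h21 : ¬ S₂.Ov ≤ S₁.Ov)
    {x : F} (hx₁ : x ∈ S₁.Ov) (hx₂ : x ∈ S₂.Ov)
    (hdeg : Divisor.degree (poleDiv S₁.hF x) ≤
      Divisor.degree (poleDiv S₁.hFk (S₁.red x)) + Divisor.degree (poleDiv S₂.hFk (S₂.red x))) :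
    Divisor.degree (poleDiv S₁.hFk (S₁.red x)) + Divisor.degree (poleDiv S₂.hFk (S₂.red x))
      = Divisor.degree (poleDiv S₁.hF x) :=
  le_antisymm (fi2_degree_le S₁ S₂ hA hres h12 h21 hx₁ hx₂) hdeg

variable {ι : Type*}

/-- the `seed` field of `NodalSeed` for `D₀ = (x)_∞`, `R_i = (red_i x)_∞`, from the NODE
condition. -/
theorem mem_nodalRR_of_node [Infinite k] (C : NodalCore K F k Fk₁ Fk₂ ι)
    (h12 : ¬ C.S₁.Ov ≤ C.S₂.Ov) (h21 : ¬ C.S₂.Ov ≤ C.S₁.Ov)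
    {x : F} (hx₁ : x ∈ C.S₁.Ov) (hx₂ : x ∈ C.S₂.Ov)
    (hdeg : Divisor.degree (poleDiv C.S₁.hF x) ≤
      Divisor.degree (poleDiv C.S₁.hFk (C.S₁.red x)) +
        Divisor.degree (poleDiv C.S₂.hFk (C.S₂.red x)))
    (m : ℕ) {f : F} (hf : f ∈ riemannRochSpace (m • poleDiv C.S₁.hF x))
    (hf₁ : f ∈ C.S₁.Ov) (hf₂ : f ∈ C.S₂.Ov)
    (hnode : ∀ i, ∃ c : k, ValAt (C.s₁ i) (C.S₁.red f) c ∧ ValAt (C.s₂ i) (C.S₂.red f) c) :
    ((C.S₁.red f, C.S₂.red f) : Fk₁ × Fk₂) ∈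
      nodalRR C.s₁ C.s₂ (m • poleDiv C.S₁.hFk (C.S₁.red x))
        (m • poleDiv C.S₂.hFk (C.S₂.red x)) := by
  obtain ⟨h1, h2⟩ := seed_pole_bounds_fi2 C.S₁ C.S₂ C.A_eq C.res_eq h12 h21 hx₁ hx₂ hdeg m hf
    hf₁ hf₂
  exact mem_nodalRR.mpr ⟨h1, h2, hnode⟩

theorem poleDiv_eq_zero_of_ord_nonneg {E : Type*} [Field E] [Algebra k E] (h : IsRRField k E)
    {y : E} {Q : Place k E} (hQ : 0 ≤ Q.ord y) : poleDiv h y Q = 0 := by
  rw [poleDiv_apply]
  exact max_eq_right (by omega)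

/-- **The seed attached to `x`**: `D₀ = (x)_∞`, `R_i = (red_i x)_∞`. -/
def seedOfX [Fintype ι] [Infinite k] (C : NodalCore K F k Fk₁ Fk₂ ι)
    (h12 : ¬ C.S₁.Ov ≤ C.S₂.Ov) (h21 : ¬ C.S₂.Ov ≤ C.S₁.Ov)
    (x : F) (hx₁ : x ∈ C.S₁.Ov) (hx₂ : x ∈ C.S₂.Ov)
    (hpos₁ : 0 < Divisor.degree (poleDiv C.S₁.hFk (C.S₁.red x)))
    (hpos₂ : 0 < Divisor.degree (poleDiv C.S₂.hFk (C.S₂.red x)))
    (hn₁ : ∀ i, 0 ≤ (C.s₁ i).ord (C.S₁.red x))
    (hn₂ : ∀ i, 0 ≤ (C.s₂ i).ord (C.S₂.red x))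
    (hdeg : Divisor.degree (poleDiv C.S₁.hF x) ≤
      Divisor.degree (poleDiv C.S₁.hFk (C.S₁.red x)) +
        Divisor.degree (poleDiv C.S₂.hFk (C.S₂.red x)))
    (hnode : ∀ (m : ℕ) (f : F), f ∈ riemannRochSpace (m • poleDiv C.S₁.hF x) →
      f ∈ C.S₁.Ov → f ∈ C.S₂.Ov →
      ∀ i, ∃ c : k, ValAt (C.s₁ i) (C.S₁.red f) c ∧ ValAt (C.s₂ i) (C.S₂.red f) c)
    (hgenus : genusFF K F + 1 ≤ genusFF k Fk₁ + genusFF k Fk₂ + Fintype.card ι) :
    NodalSeed K F k Fk₁ Fk₂ ι where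
  toNodalCore := C
  D₀ := poleDiv C.S₁.hF x
  R₁ := poleDiv C.S₁.hFk (C.S₁.red x)
  R₂ := poleDiv C.S₂.hFk (C.S₂.red x)
  D₀_nonneg := poleDiv_nonneg _ _
  R₁_nonneg := poleDiv_nonneg _ _
  R₂_nonneg := poleDiv_nonneg _ _
  R₁_pos := hpos₁
  R₂_pos := hpos₂
  R₁_node := fun i => poleDiv_eq_zero_of_ord_nonneg _ (hn₁ i)
  R₂_node := fun i => poleDiv_eq_zero_of_ord_nonneg _ (hn₂ i)
  deg_eq := degree_poleDiv_eq C.S₁ C.S₂ C.A_eq C.res_eq h12 h21 hx₁ hx₂ hdeg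
  seed := fun m f hf hf₁ hf₂ =>
    mem_nodalRR_of_node C h12 h21 hx₁ hx₂ hdeg m hf hf₁ hf₂ (hnode m f hf hf₁ hf₂)
  genus_le := hgenus

end Fermat.Agent.BadRed.SeedPoles
end
end MergeWrap_Lib_BadRed_Mod_SeedOfX

section MergeWrap_Lib_BadRed_Mod_SeedNodeB -- from Lib/BadRed/Mod/SeedNodeB.lean

set_option autoImplicit false
set_option linter.style.haveILetI false
set_option linter.unusedSectionVars false

/-!
# Cluster T, WP M2 (seed node condition), piece B: LAURENT / GAUSS  (helper33)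

Two constant reductions `S₁`, `S₂` of `F / K` over the same valuation ring `A` of `K`,
`u ∈ F`, `ϖ ∈ 𝔪_A`, `ϖ ≠ 0`, such that `u` is a unit for `S₁` with transcendental reduction `ū`
and `u' = ϖ / u` is a unit for `S₂` with transcendental reduction `ū'`.

* `gauss_family`, `gauss_poly` : Gauss lemma for one constant reduction.
* `laurent_gauss` : a Laurent polynomial `c = P(u) / u ^ M` which is integral for both valuations
  reduces to POLYNOMIALS `P₁(ū)`, `P₂(ū')` with the SAME constant term.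

Sorry-free.
-/

noncomputable section

open Polynomial Fermat.Agent.Deuring

namespace Fermat.Agent.BadRed.SeedNode

variable {K F k Fk₁ Fk₂ : Type*} [Field K] [Field F] [Algebra K F]
  [Field k] [Field Fk₁] [Algebra k Fk₁] [Field Fk₂] [Algebra k Fk₂]


/-- powers of a transcendental element are linearly independent. -/
theorem linearIndependent_pow_of_transcendental {Fk : Type*} [Field Fk] [Algebra k Fk] {t : Fk}
    (ht : Transcendental k t) (n : ℕ) (e : Fin n → ℕ) (he : Function.Injective e) :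
    LinearIndependent k (fun i : Fin n => t ^ e i) := by
  classical
  rw [Fintype.linearIndependent_iff]
  intro g hg i
  have hinj := transcendental_iff_injective.mp ht
  have h0 : Polynomial.aeval t (∑ j, Polynomial.monomial (e j) (g j)) = 0 := by
    rw [map_sum, ← hg]
    refine Finset.sum_congr rfl fun j _ => ?_
    rw [Polynomial.aeval_monomial, Algebra.smul_def]
  have h1 : (∑ j, Polynomial.monomial (e j) (g j) : k[X]) = 0 :=
    hinj (by rw [h0, map_zero])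
  have h2 := congrArg (fun p : k[X] => p.coeff (e i)) h1
  simp only [Polynomial.finsetSum_coeff, Polynomial.coeff_monomial, Polynomial.coeff_zero] at h2
  rw [Finset.sum_eq_single i] at h2
  · simpa using h2
  · intro j _ hji
    rw [if_neg]
    exact fun h => hji (he h)
  · intro h
    exact absurd (Finset.mem_univ i) h

/-- (G) Gauss lemma for one constant reduction, general exponents. -/
theorem gauss_family {Fk : Type*} [Field Fk] [Algebra k Fk] (S : ValSetup K F k Fk) {u : F}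
    (hu : u ∈ S.Ov) (hubar : Transcendental k (S.red u)) (n : ℕ) (e : Fin n → ℕ)
    (he : Function.Injective e) (c : Fin n → K)
    (hP : (∑ i, c i • u ^ e i) ∈ S.Ov) :
    ∃ hc : ∀ i, c i ∈ S.A,
      S.red (∑ i, c i • u ^ e i) = ∑ i, algebraMap k Fk (S.res ⟨c i, hc i⟩) * S.red u ^ e i := by
  have hw : ∀ i : Fin n, u ^ e i ∈ S.Ov := fun i => pow_mem hu _
  have hli : LinearIndependent k (fun i : Fin n => S.red (u ^ e i)) := by
    have := linearIndependent_pow_of_transcendental hubar n e he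
    simpa only [S.red_pow hu] using this
  have hc := coeff_mem_of_sum_mem S (fun i => u ^ e i) hw hli c hP
  refine ⟨hc, ?_⟩
  rw [(red_sum S (fun i => u ^ e i) hw c hc).2]
  refine Finset.sum_congr rfl fun i _ => ?_
  rw [Algebra.smul_def, S.red_pow hu]

/-- (G) Gauss lemma for one constant reduction: a polynomial expression `P(u) ∈ Ov` in an
integral `u` with transcendental reduction has coefficients in `A`, and reduces
coefficientwise. -/
theorem gauss_poly {Fk : Type*} [Field Fk] [Algebra k Fk] (S : ValSetup K F k Fk) {u : F}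
    (hu : u ∈ S.Ov) (hubar : Transcendental k (S.red u)) (P : K[X])
    (hP : Polynomial.aeval u P ∈ S.Ov) :
    ∃ hc : ∀ i, P.coeff i ∈ S.A,
      S.red (Polynomial.aeval u P) =
        ∑ i ∈ Finset.range (P.natDegree + 1), algebraMap k Fk (S.res ⟨P.coeff i, hc i⟩) *
          S.red u ^ i := by
  have hsum : Polynomial.aeval u P = ∑ i : Fin (P.natDegree + 1), P.coeff i • u ^ (i : ℕ) := by
    rw [Polynomial.aeval_eq_sum_range, ← Fin.sum_univ_eq_sum_range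
      (fun i => P.coeff i • u ^ i) (P.natDegree + 1)]
  rw [hsum] at hP
  obtain ⟨hc, hred⟩ := gauss_family S hu hubar (P.natDegree + 1) (fun i => (i : ℕ))
    Fin.val_injective (fun i => P.coeff i) hP
  have hc' : ∀ i, P.coeff i ∈ S.A := by
    intro i
    by_cases hi : i < P.natDegree + 1
    · exact hc ⟨i, hi⟩
    · rw [Polynomial.coeff_eq_zero_of_natDegree_lt (by omega)]
      exact zero_mem _
  refine ⟨hc', ?_⟩
  rw [hsum, hred, ← Fin.sum_univ_eq_sum_range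
      (fun i => algebraMap k Fk (S.res ⟨P.coeff i, hc' i⟩) * S.red u ^ i) (P.natDegree + 1)]



theorem ne_zero_of_transcendental' {R A : Type*} [Field R] [Field A] [Algebra R A] {t : A}
    (ht : Transcendental R t) : t ≠ 0 := fun h0 => ht (h0 ▸ isAlgebraic_zero)

/-- residue of a product with a non-unit. -/
theorem res_mul_eq_zero {Fk : Type*} [Field Fk] [Algebra k Fk] (S : ValSetup K F k Fk)
    {a b : K} (ha : a ∈ S.A) (hb : b ∈ S.A) (hb0 : S.res ⟨b, hb⟩ = 0) (hab : a * b ∈ S.A) :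
    S.res ⟨a * b, hab⟩ = 0 := by
  have : (⟨a * b, hab⟩ : S.A) = ⟨a, ha⟩ * ⟨b, hb⟩ := rfl
  rw [this, map_mul, hb0, mul_zero]

theorem res_pow_eq_zero {Fk : Type*} [Field Fk] [Algebra k Fk] (S : ValSetup K F k Fk)
    {b : K} (hb : b ∈ S.A) (hb0 : S.res ⟨b, hb⟩ = 0) {n : ℕ} (hn : 0 < n)
    (hbn : b ^ n ∈ S.A) : S.res ⟨b ^ n, hbn⟩ = 0 := by
  have : (⟨b ^ n, hbn⟩ : S.A) = ⟨b, hb⟩ ^ n := rfl
  rw [this, map_pow, hb0, zero_pow hn.ne']

/-- (B) LAURENT / GAUSS. -/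
theorem laurent_gauss (S₁ : ValSetup K F k Fk₁) (S₂ : ValSetup K F k Fk₂) (hA : S₁.A = S₂.A)
    (hres : ∀ (c : K) (h₁ : c ∈ S₁.A) (h₂ : c ∈ S₂.A), S₁.res ⟨c, h₁⟩ = S₂.res ⟨c, h₂⟩)
    {u : F} {ϖ : K} (hϖ0 : ϖ ≠ 0) (hϖ : ϖ ∈ S₁.A) (hϖres : S₁.res ⟨ϖ, hϖ⟩ = 0)
    (hu₁ : u ∈ S₁.Ov) (hubar₁ : Transcendental k (S₁.red u))
    (hu₂ : algebraMap K F ϖ / u ∈ S₂.Ov)
    (hubar₂ : Transcendental k (S₂.red (algebraMap K F ϖ / u)))
    (c : F) (hc₁ : c ∈ S₁.Ov) (hc₂ : c ∈ S₂.Ov) (M : ℕ) (P : K[X])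
    (hP : c * u ^ M = Polynomial.aeval u P) :
    ∃ P₁ P₂ : k[X], P₁.coeff 0 = P₂.coeff 0 ∧
      S₁.red c = Polynomial.aeval (S₁.red u) P₁ ∧
      S₂.red c = Polynomial.aeval (S₂.red (algebraMap K F ϖ / u)) P₂ := by
  classical
  have hub0 : S₁.red u ≠ 0 := ne_zero_of_transcendental' hubar₁
  have hub0' : S₂.red (algebraMap K F ϖ / u) ≠ 0 := ne_zero_of_transcendental' hubar₂
  have hu0 : u ≠ 0 := S₁.ne_zero_of_red_ne_zero hub0
  have hϖF : algebraMap K F ϖ ≠ 0 := by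
    rw [Ne, map_eq_zero_iff _ (algebraMap K F).injective]
    exact hϖ0
  set u' : F := algebraMap K F ϖ / u with hu'
  have hu'0 : u' ≠ 0 := div_ne_zero hϖF hu0
  have huu' : u * u' = algebraMap K F ϖ := by
    rw [hu']; field_simp
  have hϖ₂ : ϖ ∈ S₂.A := hA ▸ hϖ
  have hϖres₂ : S₂.res ⟨ϖ, hϖ₂⟩ = 0 := by rw [← hres ϖ hϖ hϖ₂]; exact hϖres
  -- the common degree bound
  set D : ℕ := max P.natDegree M with hD
  have hDP : P.natDegree ≤ D := le_max_left _ _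
  have hDM : M ≤ D := le_max_right _ _
  have hPsum : Polynomial.aeval u P = ∑ i ∈ Finset.range (D + 1), P.coeff i • u ^ i := by
    rw [Polynomial.aeval_eq_sum_range' (n := D + 1) (by omega)]
  -- side 1
  have hP₁ : Polynomial.aeval u P ∈ S₁.Ov := hP ▸ mul_mem hc₁ (pow_mem hu₁ M)
  have hsum₁ : Polynomial.aeval u P = ∑ i : Fin (D + 1), P.coeff i • u ^ (i : ℕ) := by
    rw [hPsum, ← Fin.sum_univ_eq_sum_range (fun i => P.coeff i • u ^ i) (D + 1)]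
  obtain ⟨hp, hred₁⟩ := gauss_family S₁ hu₁ hubar₁ (D + 1) (fun i => (i : ℕ))
    Fin.val_injective (fun i => P.coeff i) (hsum₁ ▸ hP₁)
  have hp' : ∀ i : ℕ, P.coeff i ∈ S₁.A := by
    intro i
    by_cases hi : i < D + 1
    · exact hp ⟨i, hi⟩
    · rw [Polynomial.coeff_eq_zero_of_natDegree_lt (by omega)]
      exact zero_mem _
  -- side 2
  set q : ℕ → K := fun j => P.coeff j * ϖ ^ j * (ϖ ^ M)⁻¹ with hq
  have hsum₂ : ∑ j : Fin (D + 1), q j • u' ^ (D - (j : ℕ)) = c * u' ^ (D - M) := by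
    have h1 : ∀ j : Fin (D + 1), q j • u' ^ (D - (j : ℕ)) =
        (algebraMap K F (ϖ ^ M))⁻¹ * u' ^ D * (P.coeff j • u ^ (j : ℕ)) := by
      intro j
      have hj : (j : ℕ) ≤ D := by have := j.2; omega
      have e1 : u' ^ D = u' ^ (D - (j : ℕ)) * u' ^ (j : ℕ) := by
        rw [← pow_add, Nat.sub_add_cancel hj]
      rw [hq, Algebra.smul_def, Algebra.smul_def, map_mul, map_mul, map_inv₀, map_pow, ← huu',
        e1]
      ring
    rw [Finset.sum_congr rfl fun j _ => h1 j, ← Finset.mul_sum, ← hsum₁, ← hP]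
    have e2 : u' ^ D = u' ^ (D - M) * u' ^ M := by rw [← pow_add, Nat.sub_add_cancel hDM]
    have e3 : algebraMap K F (ϖ ^ M) = u ^ M * u' ^ M := by
      rw [map_pow, ← huu', mul_pow]
    have e4 : u ^ M * u' ^ M ≠ 0 := mul_ne_zero (pow_ne_zero _ hu0) (pow_ne_zero _ hu'0)
    rw [e2, e3]
    field_simp
  have hinj : Function.Injective (fun j : Fin (D + 1) => D - (j : ℕ)) := by
    intro a b hab
    have ha := a.2
    have hb := b.2
    simp only at hab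
    exact Fin.ext (by omega)
  have hmem₂ : (∑ j : Fin (D + 1), q j • u' ^ (D - (j : ℕ))) ∈ S₂.Ov := by
    rw [hsum₂]
    exact mul_mem hc₂ (pow_mem hu₂ _)
  obtain ⟨hq₂, hred₂⟩ := gauss_family S₂ hu₂ hubar₂ (D + 1) (fun j => D - (j : ℕ)) hinj
    (fun j => q j) hmem₂
  have hq' : ∀ j : ℕ, q j ∈ S₂.A := by
    intro j
    by_cases hj : j < D + 1
    · exact hq₂ ⟨j, hj⟩
    · have : q j = 0 := by
        rw [hq]
        simp only
        rw [Polynomial.coeff_eq_zero_of_natDegree_lt (by omega), zero_mul, zero_mul]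
      rw [this]
      exact zero_mem _
  -- total residue functions
  set pb : ℕ → k := fun i => S₁.res ⟨P.coeff i, hp' i⟩ with hpb
  set qb : ℕ → k := fun j => S₂.res ⟨q j, hq' j⟩ with hqb
  have hϖpow : ∀ n : ℕ, ϖ ^ n ∈ S₁.A := fun n => pow_mem hϖ n
  -- vanishing
  have hpb0 : ∀ i, i < M → pb i = 0 := by
    intro i hi
    have e : P.coeff i = q i * ϖ ^ (M - i) := by
      rw [hq]
      simp only
      have : ϖ ^ M = ϖ ^ i * ϖ ^ (M - i) := by rw [← pow_add]; congr 1; omega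
      rw [this]
      have h1 : ϖ ^ i ≠ 0 := pow_ne_zero _ hϖ0
      have h2 : ϖ ^ (M - i) ≠ 0 := pow_ne_zero _ hϖ0
      field_simp
    have hqi : q i ∈ S₁.A := hA ▸ hq' i
    have hmem : q i * ϖ ^ (M - i) ∈ S₁.A := mul_mem hqi (hϖpow _)
    have h3 : pb i = S₁.res ⟨q i * ϖ ^ (M - i), hmem⟩ := by
      rw [hpb]
      simp only
      congr 1
      exact Subtype.ext e
    rw [h3]
    exact res_mul_eq_zero S₁ hqi (hϖpow _)
      (res_pow_eq_zero S₁ hϖ hϖres (by omega) (hϖpow _)) hmem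
  have hqb0 : ∀ j, M < j → qb j = 0 := by
    intro j hj
    have e : q j = P.coeff j * ϖ ^ (j - M) := by
      rw [hq]
      simp only
      have : ϖ ^ j = ϖ ^ (j - M) * ϖ ^ M := by rw [← pow_add]; congr 1; omega
      rw [this]
      have h1 : ϖ ^ M ≠ 0 := pow_ne_zero _ hϖ0
      field_simp
    have hpj : P.coeff j ∈ S₂.A := hA ▸ hp' j
    have hϖpow₂ : ∀ n : ℕ, ϖ ^ n ∈ S₂.A := fun n => pow_mem hϖ₂ n
    have hmem : P.coeff j * ϖ ^ (j - M) ∈ S₂.A := mul_mem hpj (hϖpow₂ _)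
    have h3 : qb j = S₂.res ⟨P.coeff j * ϖ ^ (j - M), hmem⟩ := by
      rw [hqb]
      simp only
      congr 1
      exact Subtype.ext e
    rw [h3]
    exact res_mul_eq_zero S₂ hpj (hϖpow₂ _)
      (res_pow_eq_zero S₂ hϖ₂ hϖres₂ (by omega) (hϖpow₂ _)) hmem
  have hqM : qb M = pb M := by
    have e : q M = P.coeff M := by
      rw [hq]
      simp only
      have h1 : ϖ ^ M ≠ 0 := pow_ne_zero _ hϖ0
      field_simp
    rw [hqb, hpb]
    simp only
    rw [hres (P.coeff M) (hp' M) (hA ▸ hp' M)]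
    congr 1
    exact Subtype.ext e
  -- the two polynomials
  refine ⟨∑ i ∈ Finset.range (D + 1 - M), Polynomial.monomial i (pb (M + i)),
    ∑ j ∈ Finset.range (M + 1), Polynomial.monomial (M - j) (qb j), ?_, ?_, ?_⟩
  · -- constant terms
    rw [Polynomial.finsetSum_coeff, Polynomial.finsetSum_coeff]
    simp only [Polynomial.coeff_monomial]
    rw [Finset.sum_eq_single 0, Finset.sum_eq_single M]
    · simp [hqM]
    · intro j hj hjM
      have := Finset.mem_range.mp hj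
      rw [if_neg (by omega)]
    · intro h
      exact absurd (Finset.mem_range.mpr (Nat.lt_succ_self M)) h
    · intro i _ hi
      rw [if_neg hi]
    · intro h
      exact absurd (Finset.mem_range.mpr (by omega)) h
  · -- side 1
    have h1 : S₁.red c * S₁.red u ^ M =
        ∑ i ∈ Finset.range (D + 1), algebraMap k Fk₁ (pb i) * S₁.red u ^ i := by
      rw [← S₁.red_pow hu₁, ← S₁.red_mul hc₁ (pow_mem hu₁ M), hP, hsum₁, hred₁,
        ← Fin.sum_univ_eq_sum_range (fun i => algebraMap k Fk₁ (pb i) * S₁.red u ^ i) (D + 1)]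
    have h2 : ∑ i ∈ Finset.range (D + 1), algebraMap k Fk₁ (pb i) * S₁.red u ^ i =
        S₁.red u ^ M * ∑ i ∈ Finset.range (D + 1 - M),
          algebraMap k Fk₁ (pb (M + i)) * S₁.red u ^ i := by
      have hsplit : D + 1 = M + (D + 1 - M) := by omega
      conv_lhs => rw [hsplit]
      rw [Finset.sum_range_add, Finset.sum_eq_zero, zero_add, Finset.mul_sum]
      · refine Finset.sum_congr rfl fun i _ => ?_
        rw [pow_add]
        ring
      · intro i hi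
        rw [hpb0 i (Finset.mem_range.mp hi), map_zero, zero_mul]
    rw [h2, mul_comm] at h1
    have h3 := mul_left_cancel₀ (pow_ne_zero M hub0) h1
    rw [h3, map_sum]
    refine Finset.sum_congr rfl fun i _ => ?_
    rw [Polynomial.aeval_monomial]
  · -- side 2
    have h1 : S₂.red c * S₂.red u' ^ (D - M) =
        ∑ j ∈ Finset.range (D + 1), algebraMap k Fk₂ (qb j) * S₂.red u' ^ (D - j) := by
      rw [← S₂.red_pow hu₂, ← S₂.red_mul hc₂ (pow_mem hu₂ _), ← hsum₂, hred₂,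
        ← Fin.sum_univ_eq_sum_range
          (fun j => algebraMap k Fk₂ (qb j) * S₂.red u' ^ (D - j)) (D + 1)]
    have h2 : ∑ j ∈ Finset.range (D + 1), algebraMap k Fk₂ (qb j) * S₂.red u' ^ (D - j) =
        S₂.red u' ^ (D - M) * ∑ j ∈ Finset.range (M + 1),
          algebraMap k Fk₂ (qb j) * S₂.red u' ^ (M - j) := by
      have hsplit : D + 1 = (M + 1) + (D - M) := by omega
      conv_lhs => rw [hsplit]
      rw [Finset.sum_range_add, Finset.sum_eq_zero (s := Finset.range (D - M)), add_zero,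
        Finset.mul_sum]
      · refine Finset.sum_congr rfl fun j hj => ?_
        have hj' := Finset.mem_range.mp hj
        have : D - j = (D - M) + (M - j) := by omega
        rw [this, pow_add]
        ring
      · intro i _
        rw [hqb0 (M + 1 + i) (by omega), map_zero, zero_mul]
    rw [h2, mul_comm] at h1
    have h3 := mul_left_cancel₀ (pow_ne_zero (D - M) hub0') h1
    rw [h3, map_sum]
    refine Finset.sum_congr rfl fun j _ => ?_
    rw [Polynomial.aeval_monomial]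

end Fermat.Agent.BadRed.SeedNode
end
end MergeWrap_Lib_BadRed_Mod_SeedNodeB

section MergeWrap_Lib_BadRed_Mod_SeedNodeMain -- from Lib/BadRed/Mod/SeedNodeMain.lean

set_option autoImplicit false

/-!
# Cluster T, M2 (seed node condition): the abstract NODE THEOREM (assembly of pieces A, B, C)

Two constant reductions `S₁`, `S₂` of `F / K` over the same valuation ring, `u ∈ F`, `ϖ ∈ 𝔪_A`,
`u` a unit for `S₁` and `u' = ϖ / u` a unit for `S₂`, both with transcendental reduction, and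
`[F : K(u)] ≤ [Fk₁ : k(ū)]`, `[F : K(u)] ≤ [Fk₂ : k(ū')]`.

`sn_node_values`: for `f ∈ O₁ ∩ O₂` whose poles are zeros or poles of `u`, the reductions
`red₁ f`, `red₂ f` are regular off the poles of `ū`, `ū'`, and the SET of values of `red₁ f` at
the zeros of `ū` equals the SET of values of `red₂ f` at the zeros of `ū'`.

`sn_node_condition`: with separating functions, `red₁ f (s₁ i) = red₂ f (s₂ i)` for every node.
-/

noncomputable section

open Polynomial IntermediateField AlgebraicCurve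

namespace Fermat.Agent.BadRed.SeedNode

open Fermat.Agent.Deuring Fermat.Agent.RR

variable {K F k Fk : Type*} [Field K] [Field F] [Algebra K F]
  [Field k] [Field Fk] [Algebra k Fk]

/-- transcendence lifts from the reduction. -/
theorem sn_transcendental_of_red (S : ValSetup K F k Fk) {u : F} (hu : u ∈ S.Ov)
    (hub : Transcendental k (S.red u)) : Transcendental K u := by
  intro halg
  obtain ⟨p, hp, hpu⟩ := halg
  obtain ⟨c, p₀, hc, hpp, hp₀⟩ := sn_exists_normalize S hp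
  have h1 := sn_red_aeval_ne_zero S hu hub hp₀
  apply h1
  have h2 : aeval u (p₀.map (algebraMap S.A K)) = 0 := by
    rw [hpp, map_mul, aeval_C] at hpu
    rcases mul_eq_zero.mp hpu with h | h
    · exact absurd ((map_eq_zero _).mp h) hc
    · exact h
  rw [h2, S.red_zero]

/-- the characteristic polynomial only depends on the intermediate field as a set. -/
theorem sn_charpoly_congr {L L' : IntermediateField K F} (h : L = L') [FiniteDimensional L F]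
    [FiniteDimensional L' F] (f : F) (i : ℕ) :
    (((LinearMap.mulLeft L f).charpoly.coeff i : L) : F) =
      (((LinearMap.mulLeft L' f).charpoly.coeff i : L') : F) := by
  subst h
  rfl

theorem sn_finrank_congr {L L' : IntermediateField K F} (h : L = L') :
    Module.finrank L F = Module.finrank L' F := by
  subst h
  rfl

/-- piece A, coefficient form, over an intermediate field `L = K(w)`. -/
theorem sn_charpoly_red_coeff (S : ValSetup K F k Fk) {w : F} (hw : w ∈ S.Ov)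
    (hwb : Transcendental k (S.red w)) (L : IntermediateField K F) (hL : K⟮w⟯ = L)
    [FiniteDimensional L F] [FiniteDimensional k⟮S.red w⟯ Fk]
    (hdeg : Module.finrank L F ≤ Module.finrank k⟮S.red w⟯ Fk) {f : F} (hf : f ∈ S.Ov) :
    (∀ r, (((LinearMap.mulLeft L f).charpoly.coeff r : L) : F) ∈ S.Ov ∧
      S.red (((LinearMap.mulLeft L f).charpoly.coeff r : L) : F) =
        (((LinearMap.mulLeft k⟮S.red w⟯ (S.red f)).charpoly.coeff r : k⟮S.red w⟯) : Fk)) ∧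
      (LinearMap.mulLeft k⟮S.red w⟯ (S.red f)).charpoly.natDegree = Module.finrank L F := by
  subst hL
  obtain ⟨P, hP1, hP2, hPm, hPd⟩ := sn_charpoly_red hw hwb hdeg hf
  refine ⟨fun r => ?_, ?_⟩
  · rw [← hP1, ← hP2, Polynomial.coeff_map, Polynomial.coeff_map]
    exact ⟨(P.coeff r).2, rfl⟩
  · rw [← hP2, hPm.natDegree_map, hPd]

/-- `K(ϖ / u) = K(u)`. -/
theorem sn_adjoin_inv_eq {u : F} {ϖ : K} (hϖ0 : ϖ ≠ 0) (hu0 : u ≠ 0) :
    K⟮algebraMap K F ϖ / u⟯ = K⟮u⟯ := by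
  have hϖ' : algebraMap K F ϖ ≠ 0 := (_root_.map_ne_zero _).mpr hϖ0
  apply le_antisymm
  · rw [IntermediateField.adjoin_simple_le_iff]
    exact div_mem (IntermediateField.algebraMap_mem _ _) (mem_adjoin_simple_self K u)
  · rw [IntermediateField.adjoin_simple_le_iff]
    have h1 : u = algebraMap K F ϖ / (algebraMap K F ϖ / u) := by
      field_simp
    have h2 : algebraMap K F ϖ / (algebraMap K F ϖ / u) ∈ K⟮algebraMap K F ϖ / u⟯ :=
      div_mem (IntermediateField.algebraMap_mem _ _)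
        (mem_adjoin_simple_self K (algebraMap K F ϖ / u))
    rw [← h1] at h2
    exact h2

section Main

variable {Fk₁ Fk₂ : Type*} [Field Fk₁] [Algebra k Fk₁] [Field Fk₂] [Algebra k Fk₂]

/-- the bivariate polynomial with prescribed coefficients. -/
def snPhi (n : ℕ) (P : ℕ → k[X]) : Polynomial (Polynomial k) :=
  ∑ r ∈ Finset.range (n + 1), Polynomial.monomial r (P r)

theorem snPhi_coeff (n : ℕ) (P : ℕ → k[X]) (r : ℕ) :
    (snPhi n P).coeff r = if r < n + 1 then P r else 0 := by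
  classical
  simp only [snPhi, Polynomial.finsetSum_coeff, Polynomial.coeff_monomial]
  rw [Finset.sum_ite_eq' (Finset.range (n + 1)) r]
  simp

/-- `snPhi` maps to the characteristic polynomial. -/
theorem snPhi_map {E : Type*} [Field E] [Algebra k E] {x : E} [FiniteDimensional k⟮x⟯ E]
    (g : E) (n : ℕ) (P : ℕ → k[X])
    (hn : (LinearMap.mulLeft k⟮x⟯ g).charpoly.natDegree = n)
    (hP : ∀ r, (((LinearMap.mulLeft k⟮x⟯ g).charpoly.coeff r : k⟮x⟯) : E) = aeval x (P r)) :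
    (snPhi n P).map (toAdj x) = (LinearMap.mulLeft k⟮x⟯ g).charpoly := by
  ext r : 1
  rw [Polynomial.coeff_map, snPhi_coeff]
  apply Subtype.ext
  split_ifs with hr
  · rw [coe_toAdj, hP r]
  · rw [map_zero, Polynomial.coeff_eq_zero_of_natDegree_lt (by omega)]

theorem snPhi_eval_zero (n : ℕ) (P Q : ℕ → k[X]) (h : ∀ r, (P r).coeff 0 = (Q r).coeff 0) :
    (snPhi n P).map (Polynomial.evalRingHom 0) = (snPhi n Q).map (Polynomial.evalRingHom 0) := by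
  ext r : 1
  rw [Polynomial.coeff_map, Polynomial.coeff_map, snPhi_coeff, snPhi_coeff]
  split_ifs with hr
  · rw [Polynomial.coe_evalRingHom, ← Polynomial.coeff_zero_eq_eval_zero,
      ← Polynomial.coeff_zero_eq_eval_zero, h r]
  · rfl

/-- **The abstract node theorem (value sets).** -/
theorem sn_node_values (S₁ : ValSetup K F k Fk₁) (S₂ : ValSetup K F k Fk₂) (hA : S₁.A = S₂.A)
    (hres : ∀ (c : K) (h₁ : c ∈ S₁.A) (h₂ : c ∈ S₂.A), S₁.res ⟨c, h₁⟩ = S₂.res ⟨c, h₂⟩)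
    {u : F} {ϖ : K} (hϖ0 : ϖ ≠ 0) (hϖ : ϖ ∈ S₁.A) (hϖres : S₁.res ⟨ϖ, hϖ⟩ = 0)
    (hu₁ : u ∈ S₁.Ov) (hubar₁ : Transcendental k (S₁.red u))
    (hu₂ : algebraMap K F ϖ / u ∈ S₂.Ov)
    (hubar₂ : Transcendental k (S₂.red (algebraMap K F ϖ / u)))
    [FiniteDimensional K⟮u⟯ F] [FiniteDimensional k⟮S₁.red u⟯ Fk₁]
    [FiniteDimensional k⟮S₂.red (algebraMap K F ϖ / u)⟯ Fk₂]
    (hdeg₁ : Module.finrank K⟮u⟯ F ≤ Module.finrank k⟮S₁.red u⟯ Fk₁)
    (hdeg₂ : Module.finrank K⟮u⟯ F ≤ Module.finrank k⟮S₂.red (algebraMap K F ϖ / u)⟯ Fk₂)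
    (f : F) (hf₁ : f ∈ S₁.Ov) (hf₂ : f ∈ S₂.Ov)
    (hf : ∀ v : Place K F, v.ord f < 0 → v.ord u ≠ 0) :
    (∀ Q : Place k Fk₁, 0 ≤ Q.ord (S₁.red u) → 0 ≤ Q.ord (S₁.red f)) ∧
    (∀ Q : Place k Fk₂, 0 ≤ Q.ord (S₂.red (algebraMap K F ϖ / u)) → 0 ≤ Q.ord (S₂.red f)) ∧
    ∀ c : k, (∃ Q : Place k Fk₁, 0 < Q.ord (S₁.red u) ∧ ValAt Q (S₁.red f) c) ↔
      (∃ Q : Place k Fk₂, 0 < Q.ord (S₂.red (algebraMap K F ϖ / u)) ∧ ValAt Q (S₂.red f) c) := by
  have hu0 : u ≠ 0 := by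
    rintro rfl
    apply hubar₁
    rw [S₁.red_zero]
    exact isAlgebraic_zero
  have huK : Transcendental K u := sn_transcendental_of_red S₁ hu₁ hubar₁
  have hL : K⟮algebraMap K F ϖ / u⟯ = K⟮u⟯ := sn_adjoin_inv_eq hϖ0 hu0
  obtain ⟨hA₁, hn₁⟩ := sn_charpoly_red_coeff S₁ hu₁ hubar₁ K⟮u⟯ rfl hdeg₁ hf₁
  obtain ⟨hA₂, hn₂⟩ := sn_charpoly_red_coeff S₂ hu₂ hubar₂ K⟮u⟯ hL hdeg₂ hf₂
  -- Laurent form of the coefficients
  have hC := exists_laurent_coeff S₁.hF huK f hf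
  choose M P hMP using hC
  have hB := fun r => laurent_gauss S₁ S₂ hA hres hϖ0 hϖ hϖres hu₁ hubar₁ hu₂ hubar₂ _
    (hA₁ r).1 (hA₂ r).1 (M r) (P r) (hMP r)
  choose P₁ P₂ h0 hP₁ hP₂ using hB
  set n := Module.finrank K⟮u⟯ F with hn
  have hΦ₁ : (snPhi n P₁).map (toAdj (S₁.red u)) =
      (LinearMap.mulLeft k⟮S₁.red u⟯ (S₁.red f)).charpoly :=
    snPhi_map (S₁.red f) n P₁ hn₁ fun r => by rw [← (hA₁ r).2, hP₁ r]
  have hΦ₂ : (snPhi n P₂).map (toAdj (S₂.red (algebraMap K F ϖ / u))) =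
      (LinearMap.mulLeft k⟮S₂.red (algebraMap K F ϖ / u)⟯ (S₂.red f)).charpoly :=
    snPhi_map (S₂.red f) n P₂ hn₂ fun r => by rw [← (hA₂ r).2, hP₂ r]
  refine ⟨regular_of_charpoly_poly (S₁.red f) _ hΦ₁, regular_of_charpoly_poly (S₂.red f) _ hΦ₂,
    fun c => ?_⟩
  have hR₁ := root_iff_exists_place S₁.hFk hubar₁ (S₁.red f) _ hΦ₁ 0 c
  have hR₂ := root_iff_exists_place S₂.hFk hubar₂ (S₂.red f) _ hΦ₂ 0 c
  rw [map_zero, sub_zero] at hR₁ hR₂
  rw [← hR₁, ← hR₂, snPhi_eval_zero n P₁ P₂ h0]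

/-! ### functions satisfying the node condition -/

/-- `g` is integral for both valuations, has no poles off the zeros and poles of `u`, and takes
the value `c l` on BOTH branches at the node `l`. -/
structure NodeVal {ι : Type*} (S₁ : ValSetup K F k Fk₁) (S₂ : ValSetup K F k Fk₂) (u : F)
    (s₁ : ι → Place k Fk₁) (s₂ : ι → Place k Fk₂) (g : F) (c : ι → k) : Prop where
  mem₁ : g ∈ S₁.Ov
  mem₂ : g ∈ S₂.Ov
  cusp : ∀ v : Place K F, v.ord u = 0 → 0 ≤ v.ord g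
  val₁ : ∀ l, ValAt (s₁ l) (S₁.red g) (c l)
  val₂ : ∀ l, ValAt (s₂ l) (S₂.red g) (c l)

section NodeVal

variable {ι : Type*} {S₁ : ValSetup K F k Fk₁} {S₂ : ValSetup K F k Fk₂} {u : F}
  {s₁ : ι → Place k Fk₁} {s₂ : ι → Place k Fk₂}

theorem NodeVal.const (hA : S₁.A = S₂.A)
    (hres : ∀ (c : K) (h₁ : c ∈ S₁.A) (h₂ : c ∈ S₂.A), S₁.res ⟨c, h₁⟩ = S₂.res ⟨c, h₂⟩)
    {a : K} (ha : a ∈ S₁.A) :
    NodeVal S₁ S₂ u s₁ s₂ (algebraMap K F a) (fun _ => S₁.res ⟨a, ha⟩) where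
  mem₁ := S₁.algebraMap_mem ha
  mem₂ := S₂.algebraMap_mem (hA ▸ ha)
  cusp v _ := by rw [Fermat.Agent.S24Res.ord_algebraMap]
  val₁ _ := Or.inl (S₁.red_algebraMap ha)
  val₂ _ := Or.inl (by rw [S₂.red_algebraMap (hA ▸ ha), hres a ha (hA ▸ ha)])

theorem NodeVal.mul {g h : F} {c d : ι → k} (hg : NodeVal S₁ S₂ u s₁ s₂ g c)
    (hh : NodeVal S₁ S₂ u s₁ s₂ h d) : NodeVal S₁ S₂ u s₁ s₂ (g * h) (fun l => c l * d l) where
  mem₁ := mul_mem hg.mem₁ hh.mem₁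
  mem₂ := mul_mem hg.mem₂ hh.mem₂
  cusp v hv := Fermat.Agent.S24Res.ord_nonneg_of_mem v
    (mul_mem (Fermat.Agent.S24Res.mem_of_ord_nonneg v (hg.cusp v hv))
      (Fermat.Agent.S24Res.mem_of_ord_nonneg v (hh.cusp v hv)))
  val₁ l := by
    rw [S₁.red_mul hg.mem₁ hh.mem₁]
    exact (hg.val₁ l).mul (hh.val₁ l)
  val₂ l := by
    rw [S₂.red_mul hg.mem₂ hh.mem₂]
    exact (hg.val₂ l).mul (hh.val₂ l)

theorem NodeVal.add {g h : F} {c d : ι → k} (hg : NodeVal S₁ S₂ u s₁ s₂ g c)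
    (hh : NodeVal S₁ S₂ u s₁ s₂ h d) : NodeVal S₁ S₂ u s₁ s₂ (g + h) (fun l => c l + d l) where
  mem₁ := add_mem hg.mem₁ hh.mem₁
  mem₂ := add_mem hg.mem₂ hh.mem₂
  cusp v hv := Fermat.Agent.S24Res.ord_nonneg_of_mem v
    (add_mem (Fermat.Agent.S24Res.mem_of_ord_nonneg v (hg.cusp v hv))
      (Fermat.Agent.S24Res.mem_of_ord_nonneg v (hh.cusp v hv)))
  val₁ l := by
    rw [S₁.red_add hg.mem₁ hh.mem₁]
    exact (hg.val₁ l).add (hh.val₁ l)
  val₂ l := by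
    rw [S₂.red_add hg.mem₂ hh.mem₂]
    exact (hg.val₂ l).add (hh.val₂ l)

theorem NodeVal.congr {g : F} {c d : ι → k} (hg : NodeVal S₁ S₂ u s₁ s₂ g c) (h : c = d) :
    NodeVal S₁ S₂ u s₁ s₂ g d := h ▸ hg

theorem NodeVal.one (hA : S₁.A = S₂.A)
    (hres : ∀ (c : K) (h₁ : c ∈ S₁.A) (h₂ : c ∈ S₂.A), S₁.res ⟨c, h₁⟩ = S₂.res ⟨c, h₂⟩) :
    NodeVal S₁ S₂ u s₁ s₂ (1 : F) (fun _ => 1) := by
  have h := NodeVal.const (u := u) (s₁ := s₁) (s₂ := s₂) hA hres (one_mem S₁.A)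
  rw [map_one] at h
  refine h.congr (funext fun _ => ?_)
  exact map_one S₁.res

theorem NodeVal.prod (hA : S₁.A = S₂.A)
    (hres : ∀ (c : K) (h₁ : c ∈ S₁.A) (h₂ : c ∈ S₂.A), S₁.res ⟨c, h₁⟩ = S₂.res ⟨c, h₂⟩)
    {J : Type*} (t : Finset J) (g : J → F) (c : J → ι → k)
    (h : ∀ j ∈ t, NodeVal S₁ S₂ u s₁ s₂ (g j) (c j)) :
    NodeVal S₁ S₂ u s₁ s₂ (∏ j ∈ t, g j) (fun l => ∏ j ∈ t, c j l) := by
  classical
  induction t using Finset.induction_on with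
  | empty =>
    simp only [Finset.prod_empty]
    exact NodeVal.one hA hres
  | insert a t ha ih =>
    have h1 := (h a (Finset.mem_insert_self a t)).mul
      (ih fun j hj => h j (Finset.mem_insert_of_mem hj))
    rw [Finset.prod_insert ha]
    refine h1.congr (funext fun l => ?_)
    rw [Finset.prod_insert ha]

/-- a constant with nonzero residue is a unit of `A`. -/
theorem sn_inv_mem_of_res_ne_zero (S : ValSetup K F k Fk) {d : K} (hd : d ∈ S.A)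
    (hres : S.res ⟨d, hd⟩ ≠ 0) :
    ∃ h : d⁻¹ ∈ S.A, S.res ⟨d⁻¹, h⟩ = (S.res ⟨d, hd⟩)⁻¹ := by
  have hd0 : d ≠ 0 := by
    rintro rfl
    apply hres
    have : (⟨0, hd⟩ : S.A) = 0 := rfl
    rw [this, map_zero]
  have hinv : d⁻¹ ∈ S.A := by
    by_contra hcon
    obtain ⟨h, h0⟩ := S.res_inv_eq_zero hcon
    apply hres
    have : (⟨d, hd⟩ : S.A) = ⟨d⁻¹⁻¹, h⟩ := Subtype.ext (inv_inv d).symm
    rw [this, h0]
  refine ⟨hinv, ?_⟩
  have h1 : S.res ⟨d⁻¹, hinv⟩ * S.res ⟨d, hd⟩ = 1 := by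
    rw [← map_mul]
    have : (⟨d⁻¹, hinv⟩ : S.A) * ⟨d, hd⟩ = 1 := Subtype.ext (inv_mul_cancel₀ hd0)
    rw [this, map_one]
  exact eq_inv_of_mul_eq_one_left h1

/-- the normalised separating function: value `1` at the node `i`, `0` at the node `j`. -/
theorem NodeVal.exists_sep (hA : S₁.A = S₂.A)
    (hres : ∀ (c : K) (h₁ : c ∈ S₁.A) (h₂ : c ∈ S₂.A), S₁.res ⟨c, h₁⟩ = S₂.res ⟨c, h₂⟩)
    {g : F} {c : ι → k} (hg : NodeVal S₁ S₂ u s₁ s₂ g c) {i j : ι} (hij : c i ≠ c j) :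
    ∃ (h : F) (d : ι → k), NodeVal S₁ S₂ u s₁ s₂ h d ∧ d i = 1 ∧ d j = 0 := by
  obtain ⟨⟨b, hb⟩, hbj⟩ := S₁.res_surj (c j)
  obtain ⟨⟨a, ha⟩, hai⟩ := S₁.res_surj (c i)
  have hd : a - b ∈ S₁.A := sub_mem ha hb
  have hdres : S₁.res ⟨a - b, hd⟩ = c i - c j := by
    have : (⟨a - b, hd⟩ : S₁.A) = ⟨a, ha⟩ - ⟨b, hb⟩ := rfl
    rw [this, map_sub, hai, hbj]
  have hne : S₁.res ⟨a - b, hd⟩ ≠ 0 := by
    rw [hdres]
    exact sub_ne_zero.mpr hij
  obtain ⟨hinv, hinvres⟩ := sn_inv_mem_of_res_ne_zero S₁ hd hne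
  have hnb : -b ∈ S₁.A := neg_mem hb
  have hnbres : S₁.res ⟨-b, hnb⟩ = -c j := by
    have : (⟨-b, hnb⟩ : S₁.A) = -⟨b, hb⟩ := rfl
    rw [this, map_neg, hbj]
  have h1 := (hg.add (NodeVal.const (u := u) (s₁ := s₁) (s₂ := s₂) hA hres hnb)).mul
    (NodeVal.const (u := u) (s₁ := s₁) (s₂ := s₂) hA hres hinv)
  refine ⟨_, _, h1, ?_, ?_⟩
  · simp only [hnbres, hinvres, hdres]
    rw [← sub_eq_add_neg]
    exact mul_inv_cancel₀ (sub_ne_zero.mpr hij)
  · simp only [hnbres]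
    rw [add_neg_cancel, zero_mul]

/-- delta functions at the nodes. -/
theorem NodeVal.exists_delta [Finite ι] (hA : S₁.A = S₂.A)
    (hres : ∀ (c : K) (h₁ : c ∈ S₁.A) (h₂ : c ∈ S₂.A), S₁.res ⟨c, h₁⟩ = S₂.res ⟨c, h₂⟩)
    (hsep : ∀ i j, i ≠ j → ∃ (g : F) (c : ι → k), NodeVal S₁ S₂ u s₁ s₂ g c ∧ c i ≠ c j)
    (i : ι) :
    ∃ (e : F) (d : ι → k), NodeVal S₁ S₂ u s₁ s₂ e d ∧ d i = 1 ∧ ∀ l, l ≠ i → d l = 0 := by
  classical
  have := Fintype.ofFinite ι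
  have h1 : ∀ j, ∃ (h : F) (d : ι → k), NodeVal S₁ S₂ u s₁ s₂ h d ∧ d i = 1 ∧ (j ≠ i → d j = 0) := by
    intro j
    by_cases hji : j = i
    · exact ⟨1, fun _ => 1, NodeVal.one hA hres, rfl, fun h => absurd hji h⟩
    · obtain ⟨g, c, hg, hc⟩ := hsep i j (Ne.symm hji)
      obtain ⟨h, d, hh, hdi, hdj⟩ := hg.exists_sep hA hres hc
      exact ⟨h, d, hh, hdi, fun _ => hdj⟩
  choose h d hh hdi hdj using h1
  refine ⟨∏ j ∈ Finset.univ, h j, fun l => ∏ j ∈ Finset.univ, d j l,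
    NodeVal.prod hA hres Finset.univ h d (fun j _ => hh j), ?_, ?_⟩
  · exact Finset.prod_eq_one fun j _ => hdi j
  · intro l hl
    exact Finset.prod_eq_zero (Finset.mem_univ l) (hdj l hl)

end NodeVal

/-- **The abstract NODE CONDITION.**  If functions satisfying the node condition separate the
nodes, then every function which is integral for both valuations and has no poles off the zeros
and poles of `u` satisfies the node condition. -/
theorem sn_node_condition {ι : Type*} [Finite ι]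
    (S₁ : ValSetup K F k Fk₁) (S₂ : ValSetup K F k Fk₂) (hA : S₁.A = S₂.A)
    (hres : ∀ (c : K) (h₁ : c ∈ S₁.A) (h₂ : c ∈ S₂.A), S₁.res ⟨c, h₁⟩ = S₂.res ⟨c, h₂⟩)
    {u : F} {ϖ : K} (hϖ0 : ϖ ≠ 0) (hϖ : ϖ ∈ S₁.A) (hϖres : S₁.res ⟨ϖ, hϖ⟩ = 0)
    (hu₁ : u ∈ S₁.Ov) (hubar₁ : Transcendental k (S₁.red u))
    (hu₂ : algebraMap K F ϖ / u ∈ S₂.Ov)
    (hubar₂ : Transcendental k (S₂.red (algebraMap K F ϖ / u)))
    [FiniteDimensional K⟮u⟯ F] [FiniteDimensional k⟮S₁.red u⟯ Fk₁]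
    [FiniteDimensional k⟮S₂.red (algebraMap K F ϖ / u)⟯ Fk₂]
    (hdeg₁ : Module.finrank K⟮u⟯ F ≤ Module.finrank k⟮S₁.red u⟯ Fk₁)
    (hdeg₂ : Module.finrank K⟮u⟯ F ≤ Module.finrank k⟮S₂.red (algebraMap K F ϖ / u)⟯ Fk₂)
    (s₁ : ι → Place k Fk₁) (s₂ : ι → Place k Fk₂)
    (hs₁ : ∀ i, 0 < (s₁ i).ord (S₁.red u))
    (hs₂ : ∀ i, 0 < (s₂ i).ord (S₂.red (algebraMap K F ϖ / u)))
    (hz₁ : ∀ Q : Place k Fk₁, 0 < Q.ord (S₁.red u) → ∃ i, Q = s₁ i)
    (hz₂ : ∀ Q : Place k Fk₂, 0 < Q.ord (S₂.red (algebraMap K F ϖ / u)) → ∃ i, Q = s₂ i)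
    (hsep : ∀ i j, i ≠ j → ∃ (g : F) (c : ι → k), NodeVal S₁ S₂ u s₁ s₂ g c ∧ c i ≠ c j)
    (f : F) (hf₁ : f ∈ S₁.Ov) (hf₂ : f ∈ S₂.Ov)
    (hf : ∀ v : Place K F, v.ord u = 0 → 0 ≤ v.ord f) :
    ∃ c : ι → k, NodeVal S₁ S₂ u s₁ s₂ f c := by
  classical
  have hpole : ∀ g : F, (∀ v : Place K F, v.ord u = 0 → 0 ≤ v.ord g) →
      ∀ v : Place K F, v.ord g < 0 → v.ord u ≠ 0 := by
    intro g hg v hv h0
    have := hg v h0
    omega
  obtain ⟨hreg₁, hreg₂, -⟩ := sn_node_values S₁ S₂ hA hres hϖ0 hϖ hϖres hu₁ hubar₁ hu₂ hubar₂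
    hdeg₁ hdeg₂ f hf₁ hf₂ (hpole f hf)
  have hv₁ : ∀ l, ∃ c, ValAt (s₁ l) (S₁.red f) c := fun l =>
    exists_const_sub S₁.hFk (s₁ l) (hreg₁ _ (hs₁ l).le)
  have hv₂ : ∀ l, ∃ c, ValAt (s₂ l) (S₂.red f) c := fun l =>
    exists_const_sub S₂.hFk (s₂ l) (hreg₂ _ (hs₂ l).le)
  choose c₁ hc₁ using hv₁
  choose c₂ hc₂ using hv₂
  have key : ∀ i, c₁ i = c₂ i := by
    intro i
    obtain ⟨e, d, he, hdi, hdl⟩ := NodeVal.exists_delta hA hres hsep i
    have hg₁ : f * e ∈ S₁.Ov := mul_mem hf₁ he.mem₁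
    have hg₂ : f * e ∈ S₂.Ov := mul_mem hf₂ he.mem₂
    have hgc : ∀ v : Place K F, v.ord u = 0 → 0 ≤ v.ord (f * e) := fun v hv =>
      Fermat.Agent.S24Res.ord_nonneg_of_mem v
        (mul_mem (Fermat.Agent.S24Res.mem_of_ord_nonneg v (hf v hv))
          (Fermat.Agent.S24Res.mem_of_ord_nonneg v (he.cusp v hv)))
    obtain ⟨-, -, hiff⟩ := sn_node_values S₁ S₂ hA hres hϖ0 hϖ hϖres hu₁ hubar₁ hu₂ hubar₂
      hdeg₁ hdeg₂ (f * e) hg₁ hg₂ (hpole _ hgc)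
    have hval₁ : ∀ l, ValAt (s₁ l) (S₁.red (f * e)) (c₁ l * d l) := fun l => by
      rw [S₁.red_mul hf₁ he.mem₁]
      exact (hc₁ l).mul (he.val₁ l)
    have hval₂ : ∀ l, ValAt (s₂ l) (S₂.red (f * e)) (c₂ l * d l) := fun l => by
      rw [S₂.red_mul hf₂ he.mem₂]
      exact (hc₂ l).mul (he.val₂ l)
    -- the value `c₁ i` occurs on the second component
    obtain ⟨Q', hQ', hQ'v⟩ := (hiff (c₁ i)).mp ⟨s₁ i, hs₁ i, by
      have := hval₁ i
      rwa [hdi, mul_one] at this⟩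
    obtain ⟨j, rfl⟩ := hz₂ Q' hQ'
    have h1 : c₁ i = c₂ j * d j := hQ'v.unique (hval₂ j)
    by_cases hji : j = i
    · rw [hji, hdi, mul_one] at h1
      exact h1
    · rw [hdl j hji, mul_zero] at h1
      -- the value `c₂ i` occurs on the first component
      obtain ⟨Q, hQ, hQv⟩ := (hiff (c₂ i)).mpr ⟨s₂ i, hs₂ i, by
        have := hval₂ i
        rwa [hdi, mul_one] at this⟩
      obtain ⟨j', rfl⟩ := hz₁ Q hQ
      have h2 : c₂ i = c₁ j' * d j' := hQv.unique (hval₁ j')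
      by_cases hji' : j' = i
      · rw [hji', hdi, mul_one] at h2
        exact h2.symm
      · rw [hdl j' hji', mul_zero] at h2
        rw [h1, h2]
  exact ⟨c₁, ⟨hf₁, hf₂, hf, hc₁, fun l => by rw [key l]; exact hc₂ l⟩⟩

end Main

end Fermat.Agent.BadRed.SeedNode
end
end MergeWrap_Lib_BadRed_Mod_SeedNodeMain

section MergeWrap_Lib_BadRed_Mod_SeedOfU -- from Lib/BadRed/Mod/SeedOfU.lean

/-!
# Cluster T (helper19): the seed attached to the parameter `u`, seed function `x = u + ϖ / u`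

(helper47's proposal.)  `C : NodalCore K F k Fk₁ Fk₂ ι`, `u ∈ F`, `ϖ ∈ 𝔪_A \ 0`, `u` a unit for
`S₁` and `u' = ϖ / u` a unit for `S₂`, both with transcendental reduction, the degree inequality
(H2), the nodes = the zeros of `ū` resp. `ū'`, separating functions, `k` infinite.

* one curve: `poleDiv_add_div : (u + c / u)_∞ = (u)_∞ + (u⁻¹)_∞`, its degree `2 [F : K(u)]`,
  and `f ∈ L(m (x)_∞) ⟹ f` has no poles off the zeros and poles of `u`;
* two valuations: `x ∈ O₁ ∩ O₂`, `red₁ x = red₁ u`, `red₂ x = red₂ (ϖ / u)`, `O₁`, `O₂`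
  incomparable;
* `seedOfU : NodalSeed K F k Fk₁ Fk₂ ι` — the wiring of `seedOfX` (pole bounds, M2p) with
  `SeedNode.sn_node_condition` (node condition, M2).
-/

set_option autoImplicit false

noncomputable section

open AlgebraicCurve Fermat.Agent.RR Fermat.Agent.Deuring WithZero IntermediateField

namespace Fermat.Agent.BadRed.SeedPoles

section OneCurve

variable {K F : Type*} [Field K] [Field F] [Algebra K F] (h : IsRRField K F)

theorem poleDiv_eq_of_adicValuation_eq {w w' : F} (v : Place K F)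
    (hV : v.adicValuation w = v.adicValuation w') : poleDiv h w v = poleDiv h w' v := by
  rcases eq_or_ne w 0 with rfl | hw
  · rw [map_zero] at hV
    have hw' : w' = 0 := by
      by_contra hne
      exact v.adicValuation_ne_zero hne hV.symm
    rw [hw']
  · have hw' : w' ≠ 0 := by
      rintro rfl
      rw [map_zero] at hV
      exact v.adicValuation_ne_zero hw hV
    rw [v.adicValuation_eq_exp_neg_ord hw, v.adicValuation_eq_exp_neg_ord hw', exp_inj] at hV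
    rw [poleDiv_apply, poleDiv_apply]
    have : v.ord w = v.ord w' := by omega
    rw [this]

theorem poleDiv_eq_zero_iff (w : F) (v : Place K F) :
    poleDiv h w v = 0 ↔ v.adicValuation w ≤ 1 := by
  have h1 := poleDiv_le_iff h w v (n := 0) le_rfl
  rw [exp_zero] at h1
  rw [← h1]
  constructor
  · intro h0
    rw [h0]
  · intro h0
    exact le_antisymm h0 (poleDiv_apply_nonneg h w v)

theorem adicValuation_div_const (v : Place K F) {c : K} (hc : c ≠ 0) (u : F) :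
    v.adicValuation (algebraMap K F c / u) = (v.adicValuation u)⁻¹ := by
  rw [map_div₀, adicValuation_algebraMap_eq_one v hc, one_div]

/-- `(u + c / u)_∞ = (u)_∞ + (u⁻¹)_∞`. -/
theorem poleDiv_add_div {u : F} (hu : u ≠ 0) {c : K} (hc : c ≠ 0) :
    poleDiv h (u + algebraMap K F c / u) = poleDiv h u + poleDiv h u⁻¹ := by
  ext v
  rw [Finsupp.add_apply]
  have ha0 : v.adicValuation u ≠ 0 := v.adicValuation_ne_zero hu
  have hinv : v.adicValuation u⁻¹ = (v.adicValuation u)⁻¹ := map_inv₀ _ _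
  have hdiv := adicValuation_div_const v hc u
  rcases lt_trichotomy (v.adicValuation u) 1 with hlt | heq | hgt
  · -- zero of `u`
    have h1 : 1 < (v.adicValuation u)⁻¹ := (one_lt_inv₀ (zero_lt_iff.mpr ha0)).mpr hlt
    have h2 : v.adicValuation u < v.adicValuation (algebraMap K F c / u) := by
      rw [hdiv]
      exact hlt.trans h1
    have h3 : v.adicValuation (u + algebraMap K F c / u) = v.adicValuation u⁻¹ := by
      rw [Valuation.map_add_eq_of_lt_right _ h2, hdiv, hinv]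
    rw [poleDiv_eq_of_adicValuation_eq h v h3, (poleDiv_eq_zero_iff h u v).mpr hlt.le, zero_add]
  · -- `u` is a unit at `v`
    have h1 : v.adicValuation (u + algebraMap K F c / u) ≤ 1 := by
      refine (Valuation.map_add _ _ _).trans (max_le heq.le ?_)
      rw [hdiv, heq, inv_one]
    rw [(poleDiv_eq_zero_iff h _ v).mpr h1, (poleDiv_eq_zero_iff h u v).mpr heq.le,
      (poleDiv_eq_zero_iff h u⁻¹ v).mpr (by rw [hinv, heq, inv_one]), add_zero]
  · -- pole of `u`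
    have h1 : (v.adicValuation u)⁻¹ < 1 := inv_lt_one_of_one_lt₀ hgt
    have h2 : v.adicValuation (algebraMap K F c / u) < v.adicValuation u := by
      rw [hdiv]
      exact h1.trans hgt
    have h3 : v.adicValuation (u + algebraMap K F c / u) = v.adicValuation u :=
      Valuation.map_add_eq_of_lt_left _ h2
    rw [poleDiv_eq_of_adicValuation_eq h v h3,
      (poleDiv_eq_zero_iff h u⁻¹ v).mpr (by rw [hinv]; exact h1.le), add_zero]

theorem poleDiv_apply_of_ord_eq_zero {u : F} {v : Place K F} (hv : v.ord u = 0) :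
    poleDiv h u v = 0 ∧ poleDiv h u⁻¹ v = 0 := by
  rw [poleDiv_apply, poleDiv_apply, v.ord_inv, hv]
  simp

/-- functions of `L(m (u + c / u)_∞)` have no poles off the zeros and poles of `u`. -/
theorem ord_nonneg_of_mem_seed {u : F} (hu : u ≠ 0) {c : K} (hc : c ≠ 0) {m : ℕ} {f : F}
    (hf : f ∈ riemannRochSpace (m • poleDiv h (u + algebraMap K F c / u)))
    {v : Place K F} (hv : v.ord u = 0) : 0 ≤ v.ord f := by
  rcases (mem_riemannRochSpace_iff.mp hf) v with h0 | h1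
  · rw [h0, v.ord_zero]
  · rw [poleDiv_add_div h hu hc, Finsupp.smul_apply, Finsupp.add_apply,
      (poleDiv_apply_of_ord_eq_zero h hv).1, (poleDiv_apply_of_ord_eq_zero h hv).2, add_zero,
      smul_zero, neg_zero] at h1
    exact h1

/-- `deg (u⁻¹)_∞ = deg (u)_∞`. -/
theorem degree_poleDiv_inv (u : F) :
    Divisor.degree (poleDiv h u⁻¹) = Divisor.degree (poleDiv h u) := by
  have h1 : poleDiv h u⁻¹ = poleDiv h u + divOf h u := by
    ext v
    rw [Finsupp.add_apply, poleDiv_apply, poleDiv_apply, divOf_apply, v.ord_inv, neg_neg]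
    rcases max_cases (v.ord u) 0 with ⟨h1, _⟩ | ⟨h1, _⟩ <;>
      rcases max_cases (-(v.ord u)) 0 with ⟨h2, _⟩ | ⟨h2, _⟩ <;> omega
  rw [h1, map_add, degree_divOf, add_zero]

/-- `deg (u + c / u)_∞ = 2 [F : K(u)]`. -/
theorem degree_poleDiv_add_div {u : F} (hu : Transcendental K u) [FiniteDimensional K⟮u⟯ F]
    {c : K} (hc : c ≠ 0) :
    Divisor.degree (poleDiv h (u + algebraMap K F c / u)) = 2 * (Module.finrank K⟮u⟯ F : ℤ) := by
  have hu0 : u ≠ 0 := by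
    rintro rfl
    exact hu (isAlgebraic_zero)
  rw [poleDiv_add_div h hu0 hc, map_add, degree_poleDiv_inv, Fermat.Agent.RRHur.degree_poleDiv_eq_finrank h hu]
  ring

end OneCurve

section TwoVal

variable {K F k Fk : Type*} [Field K] [Field F] [Algebra K F]
  [Field k] [Field Fk] [Algebra k Fk]

/-- if `u` is a unit of `Ov` and `ϖ ∈ 𝔪_A`, then `ϖ / u ∈ 𝔪_v` and `red (u + ϖ / u) = red u`. -/
theorem red_add_div (S : ValSetup K F k Fk) {u : F} {ϖ : K} (hϖ : ϖ ∈ S.A)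
    (hϖres : S.res ⟨ϖ, hϖ⟩ = 0) (hu : S.red u ≠ 0) :
    algebraMap K F ϖ / u ∈ S.Ov ∧ S.red (algebraMap K F ϖ / u) = 0 ∧
      u + algebraMap K F ϖ / u ∈ S.Ov ∧ S.red (u + algebraMap K F ϖ / u) = S.red u := by
  have hu1 : u ∈ S.Ov := S.mem_of_red_ne_zero hu
  have hu2 : u⁻¹ ∈ S.Ov := S.inv_mem_of_red_ne_zero hu
  have hϖ' : algebraMap K F ϖ ∈ S.Ov := S.algebraMap_mem hϖ
  have h1 : algebraMap K F ϖ / u ∈ S.Ov := by
    rw [div_eq_mul_inv]
    exact mul_mem hϖ' hu2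
  have h2 : S.red (algebraMap K F ϖ / u) = 0 := by
    rw [div_eq_mul_inv, S.red_mul hϖ' hu2, S.red_algebraMap hϖ, hϖres, map_zero, zero_mul]
  refine ⟨h1, h2, add_mem hu1 h1, ?_⟩
  rw [S.red_add hu1 h1, h2, add_zero]

/-- the same for the second valuation: `u' = ϖ / u` is a unit, `u = ϖ / u' ∈ 𝔪_v`. -/
theorem red_add_div' (S : ValSetup K F k Fk) {u : F} {ϖ : K} (hϖ : ϖ ∈ S.A)
    (hϖres : S.res ⟨ϖ, hϖ⟩ = 0) (hu' : S.red (algebraMap K F ϖ / u) ≠ 0) :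
    u ∈ S.Ov ∧ S.red u = 0 ∧
      u + algebraMap K F ϖ / u ∈ S.Ov ∧
      S.red (u + algebraMap K F ϖ / u) = S.red (algebraMap K F ϖ / u) := by
  have hne : algebraMap K F ϖ / u ≠ 0 := S.ne_zero_of_red_ne_zero hu'
  have hu0 : u ≠ 0 := by
    rintro rfl
    exact hne (div_zero _)
  have hϖ0 : algebraMap K F ϖ ≠ 0 := by
    intro h0
    exact hne (by rw [h0, zero_div])
  have hu_eq : algebraMap K F ϖ / (algebraMap K F ϖ / u) = u := by
    field_simp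
  obtain ⟨h1, h2, h3, h4⟩ := red_add_div S hϖ hϖres hu'
  rw [hu_eq] at h1 h2 h3 h4
  refine ⟨h1, h2, ?_, ?_⟩
  · rw [add_comm]
    exact h3
  · rw [add_comm]
    exact h4

/-- a unit of `O₁` which is a nonunit of `O₂` shows `¬ O₁ ≤ O₂`. -/
theorem not_le_of_unit_of_red_zero {Fk₁ Fk₂ : Type*} [Field Fk₁] [Algebra k Fk₁] [Field Fk₂]
    [Algebra k Fk₂] (S₁ : ValSetup K F k Fk₁) (S₂ : ValSetup K F k Fk₂) {u : F}
    (hu₁ : S₁.red u ≠ 0) (hu₂ : u ∈ S₂.Ov) (hu₂' : S₂.red u = 0) : ¬ S₁.Ov ≤ S₂.Ov := by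
  intro hle
  have hu0 : u ≠ 0 := S₁.ne_zero_of_red_ne_zero hu₁
  have h1 : u⁻¹ ∈ S₂.Ov := hle (S₁.inv_mem_of_red_ne_zero hu₁)
  exact ((S₂.red_eq_zero_iff hu₂ hu0).mp hu₂') h1

end TwoVal

section Seed

variable {K F k Fk₁ Fk₂ : Type*} [Field K] [Field F] [Algebra K F]
  [Field k] [Field Fk₁] [Algebra k Fk₁] [Field Fk₂] [Algebra k Fk₂] {ι : Type*}

open Fermat.Agent.BadRed.SeedNode

/-- **The seed attached to `u`** (seed function `x = u + ϖ / u`):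
`D₀ = (u)_∞ + (u)_0`, `R₁ = (ū)_∞`, `R₂ = (ū')_∞`. -/
def seedOfU [Fintype ι] [Infinite k] (C : NodalCore K F k Fk₁ Fk₂ ι)
    (u : F) (ϖ : K) (hϖ0 : ϖ ≠ 0) (hϖ : ϖ ∈ C.S₁.A) (hϖres : C.S₁.res ⟨ϖ, hϖ⟩ = 0)
    (hu₁ : u ∈ C.S₁.Ov) (hubar₁ : Transcendental k (C.S₁.red u))
    (hu₂ : algebraMap K F ϖ / u ∈ C.S₂.Ov)
    (hubar₂ : Transcendental k (C.S₂.red (algebraMap K F ϖ / u)))
    [FiniteDimensional K⟮u⟯ F] [FiniteDimensional k⟮C.S₁.red u⟯ Fk₁]
    [FiniteDimensional k⟮C.S₂.red (algebraMap K F ϖ / u)⟯ Fk₂]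
    (hdeg₁ : Module.finrank K⟮u⟯ F ≤ Module.finrank k⟮C.S₁.red u⟯ Fk₁)
    (hdeg₂ : Module.finrank K⟮u⟯ F ≤ Module.finrank k⟮C.S₂.red (algebraMap K F ϖ / u)⟯ Fk₂)
    (hs₁ : ∀ i, 0 < (C.s₁ i).ord (C.S₁.red u))
    (hs₂ : ∀ i, 0 < (C.s₂ i).ord (C.S₂.red (algebraMap K F ϖ / u)))
    (hz₁ : ∀ Q : Place k Fk₁, 0 < Q.ord (C.S₁.red u) → ∃ i, Q = C.s₁ i)
    (hz₂ : ∀ Q : Place k Fk₂, 0 < Q.ord (C.S₂.red (algebraMap K F ϖ / u)) → ∃ i, Q = C.s₂ i)
    (hsep : ∀ i j, i ≠ j → ∃ (g : F) (c : ι → k), NodeVal C.S₁ C.S₂ u C.s₁ C.s₂ g c ∧ c i ≠ c j)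
    (hgenus : genusFF K F + 1 ≤ genusFF k Fk₁ + genusFF k Fk₂ + Fintype.card ι) :
    NodalSeed K F k Fk₁ Fk₂ ι :=
  have hϖ₂ : ϖ ∈ C.S₂.A := C.A_eq ▸ hϖ
  have hϖres₂ : C.S₂.res ⟨ϖ, hϖ₂⟩ = 0 := by rw [← C.res_eq ϖ hϖ hϖ₂, hϖres]
  have hne₁ : C.S₁.red u ≠ 0 := fun h0 => hubar₁ (h0 ▸ isAlgebraic_zero)
  have hne₂ : C.S₂.red (algebraMap K F ϖ / u) ≠ 0 := fun h0 => hubar₂ (h0 ▸ isAlgebraic_zero)
  have hu0 : u ≠ 0 := C.S₁.ne_zero_of_red_ne_zero hne₁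
  have htr : Transcendental K u := sn_transcendental_of_red C.S₁ hu₁ hubar₁
  have r₁ := red_add_div C.S₁ hϖ hϖres hne₁
  have r₂ := red_add_div' C.S₂ hϖ₂ hϖres₂ hne₂
  have h12 : ¬ C.S₁.Ov ≤ C.S₂.Ov := not_le_of_unit_of_red_zero C.S₁ C.S₂ hne₁ r₂.1 r₂.2.1
  have h21 : ¬ C.S₂.Ov ≤ C.S₁.Ov := not_le_of_unit_of_red_zero C.S₂ C.S₁ hne₂ r₁.1 r₁.2.1
  have hd₁ : Divisor.degree (poleDiv C.S₁.hFk (C.S₁.red u))
      = (Module.finrank k⟮C.S₁.red u⟯ Fk₁ : ℤ) := Fermat.Agent.RRHur.degree_poleDiv_eq_finrank C.S₁.hFk hubar₁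
  have hd₂ : Divisor.degree (poleDiv C.S₂.hFk (C.S₂.red (algebraMap K F ϖ / u)))
      = (Module.finrank k⟮C.S₂.red (algebraMap K F ϖ / u)⟯ Fk₂ : ℤ) :=
    Fermat.Agent.RRHur.degree_poleDiv_eq_finrank C.S₂.hFk hubar₂
  seedOfX C h12 h21 (u + algebraMap K F ϖ / u) r₁.2.2.1 r₂.2.2.1
    (by
      rw [r₁.2.2.2, hd₁]
      exact_mod_cast Module.finrank_pos)
    (by
      rw [r₂.2.2.2, hd₂]
      exact_mod_cast Module.finrank_pos)
    (fun i => by
      rw [r₁.2.2.2]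
      exact (hs₁ i).le)
    (fun i => by
      rw [r₂.2.2.2]
      exact (hs₂ i).le)
    (by
      rw [r₁.2.2.2, r₂.2.2.2, hd₁, hd₂, degree_poleDiv_add_div C.S₁.hF htr hϖ0]
      have e₁ : (Module.finrank K⟮u⟯ F : ℤ) ≤ Module.finrank k⟮C.S₁.red u⟯ Fk₁ := by
        exact_mod_cast hdeg₁
      have e₂ : (Module.finrank K⟮u⟯ F : ℤ)
          ≤ Module.finrank k⟮C.S₂.red (algebraMap K F ϖ / u)⟯ Fk₂ := by
        exact_mod_cast hdeg₂
      linarith)
    (fun m f hf hf₁ hf₂ i => by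
      obtain ⟨c, hc⟩ := sn_node_condition C.S₁ C.S₂ C.A_eq C.res_eq hϖ0 hϖ hϖres hu₁ hubar₁ hu₂
        hubar₂ hdeg₁ hdeg₂ C.s₁ C.s₂ hs₁ hs₂ hz₁ hz₂ hsep f hf₁ hf₂
        (fun v hv => ord_nonneg_of_mem_seed C.S₁.hF hu0 hϖ0 hf hv)
      exact ⟨c i, hc.val₁ i, hc.val₂ i⟩)
    hgenus

/-- The nodal core underlying `seedOfU` is the given one. -/
theorem seedOfU_toNodalCore [Fintype ι] [Infinite k] (C : NodalCore K F k Fk₁ Fk₂ ι)
    (u : F) (ϖ : K) (hϖ0 : ϖ ≠ 0) (hϖ : ϖ ∈ C.S₁.A) (hϖres : C.S₁.res ⟨ϖ, hϖ⟩ = 0)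
    (hu₁ : u ∈ C.S₁.Ov) (hubar₁ : Transcendental k (C.S₁.red u))
    (hu₂ : algebraMap K F ϖ / u ∈ C.S₂.Ov)
    (hubar₂ : Transcendental k (C.S₂.red (algebraMap K F ϖ / u)))
    [FiniteDimensional K⟮u⟯ F] [FiniteDimensional k⟮C.S₁.red u⟯ Fk₁]
    [FiniteDimensional k⟮C.S₂.red (algebraMap K F ϖ / u)⟯ Fk₂]
    (hdeg₁ : Module.finrank K⟮u⟯ F ≤ Module.finrank k⟮C.S₁.red u⟯ Fk₁)
    (hdeg₂ : Module.finrank K⟮u⟯ F ≤ Module.finrank k⟮C.S₂.red (algebraMap K F ϖ / u)⟯ Fk₂)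
    (hs₁ : ∀ i, 0 < (C.s₁ i).ord (C.S₁.red u))
    (hs₂ : ∀ i, 0 < (C.s₂ i).ord (C.S₂.red (algebraMap K F ϖ / u)))
    (hz₁ : ∀ Q : Place k Fk₁, 0 < Q.ord (C.S₁.red u) → ∃ i, Q = C.s₁ i)
    (hz₂ : ∀ Q : Place k Fk₂, 0 < Q.ord (C.S₂.red (algebraMap K F ϖ / u)) → ∃ i, Q = C.s₂ i)
    (hsep : ∀ i j, i ≠ j → ∃ (g : F) (c : ι → k), NodeVal C.S₁ C.S₂ u C.s₁ C.s₂ g c ∧ c i ≠ c j)
    (hgenus : genusFF K F + 1 ≤ genusFF k Fk₁ + genusFF k Fk₂ + Fintype.card ι) :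
    (seedOfU C u ϖ hϖ0 hϖ hϖres hu₁ hubar₁ hu₂ hubar₂ hdeg₁ hdeg₂ hs₁ hs₂ hz₁ hz₂ hsep
      hgenus).toNodalCore = C := rfl

/-- The seed divisor of `seedOfU` is the pole divisor of `u + ϖ / u`. -/
theorem seedOfU_D₀ [Fintype ι] [Infinite k] (C : NodalCore K F k Fk₁ Fk₂ ι)
    (u : F) (ϖ : K) (hϖ0 : ϖ ≠ 0) (hϖ : ϖ ∈ C.S₁.A) (hϖres : C.S₁.res ⟨ϖ, hϖ⟩ = 0)
    (hu₁ : u ∈ C.S₁.Ov) (hubar₁ : Transcendental k (C.S₁.red u))
    (hu₂ : algebraMap K F ϖ / u ∈ C.S₂.Ov)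
    (hubar₂ : Transcendental k (C.S₂.red (algebraMap K F ϖ / u)))
    [FiniteDimensional K⟮u⟯ F] [FiniteDimensional k⟮C.S₁.red u⟯ Fk₁]
    [FiniteDimensional k⟮C.S₂.red (algebraMap K F ϖ / u)⟯ Fk₂]
    (hdeg₁ : Module.finrank K⟮u⟯ F ≤ Module.finrank k⟮C.S₁.red u⟯ Fk₁)
    (hdeg₂ : Module.finrank K⟮u⟯ F ≤ Module.finrank k⟮C.S₂.red (algebraMap K F ϖ / u)⟯ Fk₂)
    (hs₁ : ∀ i, 0 < (C.s₁ i).ord (C.S₁.red u))
    (hs₂ : ∀ i, 0 < (C.s₂ i).ord (C.S₂.red (algebraMap K F ϖ / u)))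
    (hz₁ : ∀ Q : Place k Fk₁, 0 < Q.ord (C.S₁.red u) → ∃ i, Q = C.s₁ i)
    (hz₂ : ∀ Q : Place k Fk₂, 0 < Q.ord (C.S₂.red (algebraMap K F ϖ / u)) → ∃ i, Q = C.s₂ i)
    (hsep : ∀ i j, i ≠ j → ∃ (g : F) (c : ι → k), NodeVal C.S₁ C.S₂ u C.s₁ C.s₂ g c ∧ c i ≠ c j)
    (hgenus : genusFF K F + 1 ≤ genusFF k Fk₁ + genusFF k Fk₂ + Fintype.card ι) :
    (seedOfU C u ϖ hϖ0 hϖ hϖres hu₁ hubar₁ hu₂ hubar₂ hdeg₁ hdeg₂ hs₁ hs₂ hz₁ hz₂ hsep
      hgenus).D₀ = poleDiv C.S₁.hF (u + algebraMap K F ϖ / u) := rfl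

end Seed

end Fermat.Agent.BadRed.SeedPoles
end
end MergeWrap_Lib_BadRed_Mod_SeedOfU
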