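import Fermat.Agent.MU.Lib.BadRed.Mod.SSCount
import Fermat.Agent.MU.Lib.BadRed.Mod.SSCount23
import Fermat.Agent.MU.Lib.GenusEq.Inputs
import Fermat.Agent.MU.Lib.RR.Hurwitz.Count
import Fermat.Agent.S24.Residue

section MergeWrap_Lib_BadRed_Mod_SSDeg -- from Lib/BadRed/Mod/SSDeg.lean

/-!
# Cluster T / MA5: the degree of the supersingular function on the special fibre (helper98)

`q` a prime, `q ∤ N₀`, `A` a place of `ℚ̄` over `q`, `k` its residue field,
`Fk = modularFunctionFieldFullC k N₀`, `h ∈ Fk` with `q`-expansion `ssFun k q = Δ̄^{-(q-1)}`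
(the reduction of `u = Δ(z)/Δ(qz)`).  Then

* `ss_eq_aeval`       : `h = u₀ P(j̄)` with `deg P = q - 1` (all primes `q`, also `2` and `3`);
* `transcendental_ss` : `h` is transcendental over `k`;
* `finiteDimensional_adjoin_ss` : `Fk` is finite over `k(h)`;
* `poleDiv_ss`        : `(h)_∞ = (q - 1) (j̄)_∞`;
* `finrank_adjoin_ss` : `[Fk : k(h)] = (q - 1) ψ(N₀)`;
* `degree_poleDiv_ss` : `deg (h)_∞ = (q - 1) ψ(N₀)`;
* `ord_ss_of_pole`, `ord_ss_nonneg_iff`, `ord_jC_nonneg_of_ss_zero` : the poles of `h` are the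
  poles of `j̄`; in particular the zeros of `h` are not poles of `j̄`.

Abstract part (`K` a field, `F` an RR field): `poleDiv_aeval`, `finrank_adjoin_aeval`.
-/

set_option autoImplicit false
set_option linter.unusedSectionVars false
set_option linter.style.haveILetI false

noncomputable section

open AlgebraicCurve Polynomial ModularCurve IntermediateField Fermat.Agent.RR

set_option synthInstance.maxHeartbeats 400000
set_option maxHeartbeats 1000000

namespace Fermat.Agent.BadRed

section Abstract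

variable {K F : Type*} [Field K] [Field F] [Algebra K F]

/-- a polynomial in `x` has no pole outside the poles of `x`. -/
theorem ord_aeval_nonneg_of_ord (v : Place K F) {x : F} (hv : 0 ≤ v.ord x) (P : K[X]) :
    0 ≤ v.ord (Polynomial.aeval x P) :=
  Fermat.Agent.S24Res.ord_nonneg_of_mem v
    (Fermat.Agent.GoodRedSmall.aeval_mem_of_mem v (Fermat.Agent.S24Res.mem_of_ord_nonneg v hv) P)

/-- `(P(x))_∞ = deg P · (x)_∞`. -/
theorem poleDiv_aeval (hRR : IsRRField K F) {x : F} (hx : Transcendental K x) {P : K[X]}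
    (hP : P ≠ 0) :
    poleDiv hRR (Polynomial.aeval x P) = P.natDegree • poleDiv hRR x := by
  ext v
  rw [Finsupp.smul_apply, poleDiv_apply, poleDiv_apply, nsmul_eq_mul]
  by_cases hv : v.ord x < 0
  · rw [Fermat.Agent.RRHur.ord_aeval_of_pole hx v hv hP]
    have h1 : 0 ≤ (P.natDegree : ℤ) := Int.natCast_nonneg _
    have h2 : 0 ≤ (P.natDegree : ℤ) * (-(v.ord x)) := mul_nonneg h1 (by omega)
    rw [max_eq_left (by linarith), max_eq_left (by omega)]
    ring
  · have h0 := ord_aeval_nonneg_of_ord v (not_lt.mp hv) P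
    rw [max_eq_right (by omega), max_eq_right (by omega), mul_zero]

/-- a non-constant polynomial in a transcendental element is transcendental. -/
theorem transcendental_aeval' {x : F} (hx : Transcendental K x) {P : K[X]}
    (hP : P.natDegree ≠ 0) : Transcendental K (Polynomial.aeval x P) := by
  have hP0 : P ≠ 0 := by
    rintro rfl
    exact hP Polynomial.natDegree_zero
  exact hx.aeval P hP
    (mem_nonZeroDivisors_of_ne_zero (Polynomial.leadingCoeff_ne_zero.mpr hP0))

/-- `F` is finite over `K(P(x))`, `P` non-constant. -/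
theorem finiteDimensional_adjoin_aeval {x : F} (hx : Transcendental K x)
    [FiniteDimensional K⟮x⟯ F] {P : K[X]} (hP : P.natDegree ≠ 0) :
    FiniteDimensional K⟮Polynomial.aeval x P⟯ F :=
  Fermat.Agent.S24Res.finiteDimensional_adjoin_simple ⟨hx, inferInstance⟩
    (transcendental_aeval' hx hP)

/-- `[F : K(P(x))] = deg P · [F : K(x)]`. -/
theorem finrank_adjoin_aeval (hRR : IsRRField K F) {x : F} (hx : Transcendental K x)
    [FiniteDimensional K⟮x⟯ F] {P : K[X]} (hP : P.natDegree ≠ 0) :
    Module.finrank K⟮Polynomial.aeval x P⟯ F = P.natDegree * Module.finrank K⟮x⟯ F := by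
  haveI := finiteDimensional_adjoin_aeval hx hP
  have hP0 : P ≠ 0 := by
    rintro rfl
    exact hP Polynomial.natDegree_zero
  have h1 := Fermat.Agent.RRHur.degree_poleDiv_eq_finrank hRR (transcendental_aeval' hx hP)
  have h2 := Fermat.Agent.RRHur.degree_poleDiv_eq_finrank hRR hx
  rw [poleDiv_aeval hRR hx hP0, map_nsmul, h2, nsmul_eq_mul] at h1
  exact_mod_cast h1.symm

end Abstract

section Modular

local notation "Qb" => AlgebraicClosure ℚ

/-- the supersingular series is a polynomial of degree `q - 1` in `j̄`, for every prime `q`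
(`q ≥ 5`: `ssPoly`; `q = 2, 3`: `Δ̄⁻¹ = j̄`). -/
theorem ssFun_eq_aeval (k : Type) [Field k] (q : ℕ) [Fact q.Prime] [CharP k q] :
    ∃ P : k[X], P.natDegree = q - 1 ∧ ssFun k q = Polynomial.aeval (jqModC k) P := by
  have hq : q.Prime := Fact.out
  by_cases h5 : 5 ≤ q
  · obtain ⟨P, u₀, hu₀, hdeg, hss, -⟩ := ssPoly k q h5
    refine ⟨Polynomial.C u₀ * P, ?_, ?_⟩
    · rw [Polynomial.natDegree_C_mul hu₀, hdeg]
    · rw [hss, map_mul, Polynomial.aeval_C, algebraMap_mul_laurent]
  · have h23 : q = 2 ∨ q = 3 := by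
      have h2 := hq.two_le
      have h4 : q ≠ 4 := by
        rintro rfl
        exact absurd hq (by decide)
      omega
    have hq0 : ((q : ℕ) : k) = 0 := CharP.cast_eq_zero k q
    rcases h23 with rfl | rfl
    · refine ⟨Polynomial.X, Polynomial.natDegree_X, ?_⟩
      rw [Polynomial.aeval_X]
      exact Fermat.Agent.BadRed.SS23.ssFun_two k (by exact_mod_cast hq0)
    · refine ⟨Polynomial.X ^ 2, Polynomial.natDegree_X_pow 2, ?_⟩
      rw [map_pow, Polynomial.aeval_X]
      exact Fermat.Agent.BadRed.SS23.ssFun_three k (by exact_mod_cast hq0)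

variable {A : ValuationSubring Qb} (N₀ : ℕ) [NeZero N₀] {q : ℕ}

/-- `h = P(j̄)` in `F_k(N₀)`, `deg P = q - 1`. -/
theorem ss_eq_aeval (hq : q.Prime) (hA : A.LiesOverPrime q)
    (h : modularFunctionFieldFullC (IsLocalRing.ResidueField A) N₀)
    (hh : (h : LaurentSeries (IsLocalRing.ResidueField A)) =
      ssFun (IsLocalRing.ResidueField A) q) :
    ∃ P : (IsLocalRing.ResidueField A)[X], P.natDegree = q - 1 ∧
      h = Polynomial.aeval (Fermat.Agent.RRMod.jC (IsLocalRing.ResidueField A) N₀) P := by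
  haveI : Fact q.Prime := ⟨hq⟩
  haveI : CharP (IsLocalRing.ResidueField A) q := Fermat.Agent.FrobTrace.charP_residueField A hA
  obtain ⟨P, hdeg, hss⟩ := ssFun_eq_aeval (IsLocalRing.ResidueField A) q
  refine ⟨P, hdeg, ?_⟩
  apply Subtype.ext
  rw [hh, hss, ← IntermediateField.aeval_coe, Fermat.Agent.RRMod.coe_jC]

/-- `j̄ ∈ F_k(N₀)` is transcendental over `k`. -/
theorem transcendental_jC' (k : Type) [Field k] :
    Transcendental k (Fermat.Agent.RRMod.jC k N₀) :=
  Fermat.Agent.GoodRed.transcendental_of_coe _ _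
    (by rw [Fermat.Agent.RRMod.coe_jC]; exact Fermat.Agent.GoodRed.transcendental_jqModC k)

/-- the supersingular function is transcendental over `k`. -/
theorem transcendental_ss (hq : q.Prime) (hA : A.LiesOverPrime q)
    (h : modularFunctionFieldFullC (IsLocalRing.ResidueField A) N₀)
    (hh : (h : LaurentSeries (IsLocalRing.ResidueField A)) =
      ssFun (IsLocalRing.ResidueField A) q) :
    Transcendental (IsLocalRing.ResidueField A) h := by
  obtain ⟨P, hdeg, rfl⟩ := ss_eq_aeval N₀ hq hA h hh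
  have hq2 := hq.two_le
  exact transcendental_aeval' (transcendental_jC' N₀ _) (by omega)

/-- `F_k(N₀)` is finite over `k(h)`. -/
theorem finiteDimensional_adjoin_ss (hq : q.Prime) (hA : A.LiesOverPrime q)
    (h : modularFunctionFieldFullC (IsLocalRing.ResidueField A) N₀)
    (hh : (h : LaurentSeries (IsLocalRing.ResidueField A)) =
      ssFun (IsLocalRing.ResidueField A) q) :
    FiniteDimensional (IsLocalRing.ResidueField A)⟮h⟯
      (modularFunctionFieldFullC (IsLocalRing.ResidueField A) N₀) := by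
  obtain ⟨P, hdeg, rfl⟩ := ss_eq_aeval N₀ hq hA h hh
  have hq2 := hq.two_le
  haveI := Fermat.Agent.RRMod.finiteDimensional_fullC' (IsLocalRing.ResidueField A) N₀
  exact finiteDimensional_adjoin_aeval (transcendental_jC' N₀ _) (by omega)

/-- **MA5**: `[F_k(N₀) : k(h)] = (q - 1) ψ(N₀)`. -/
theorem finrank_adjoin_ss (hq : q.Prime) (hqN : ¬ q ∣ N₀) (hA : A.LiesOverPrime q)
    (h : modularFunctionFieldFullC (IsLocalRing.ResidueField A) N₀)
    (hh : (h : LaurentSeries (IsLocalRing.ResidueField A)) =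
      ssFun (IsLocalRing.ResidueField A) q) :
    Module.finrank (IsLocalRing.ResidueField A)⟮h⟯
      (modularFunctionFieldFullC (IsLocalRing.ResidueField A) N₀) = (q - 1) * dedekindPsi N₀ := by
  obtain ⟨P, hdeg, rfl⟩ := ss_eq_aeval N₀ hq hA h hh
  have hq2 := hq.two_le
  haveI : IsAlgClosed (IsLocalRing.ResidueField A) := Fermat.Agent.GaussInt.isAlgClosed_residue A
  haveI := Fermat.Agent.RRMod.finiteDimensional_fullC' (IsLocalRing.ResidueField A) N₀
  rw [finrank_adjoin_aeval (Fermat.Agent.RRMod.isRRField_fullC' (IsLocalRing.ResidueField A) N₀)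
    (transcendental_jC' N₀ _) (by omega), hdeg,
    Fermat.Agent.GenusEq.degreeModL N₀ q hq hqN A hA]

/-- `(h)_∞ = (q - 1) (j̄)_∞`. -/
theorem poleDiv_ss (hq : q.Prime) (hA : A.LiesOverPrime q)
    (hRR : IsRRField (IsLocalRing.ResidueField A)
      (modularFunctionFieldFullC (IsLocalRing.ResidueField A) N₀))
    (h : modularFunctionFieldFullC (IsLocalRing.ResidueField A) N₀)
    (hh : (h : LaurentSeries (IsLocalRing.ResidueField A)) =
      ssFun (IsLocalRing.ResidueField A) q) :
    poleDiv hRR h =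
      (q - 1) • poleDiv hRR (Fermat.Agent.RRMod.jC (IsLocalRing.ResidueField A) N₀) := by
  obtain ⟨P, hdeg, rfl⟩ := ss_eq_aeval N₀ hq hA h hh
  have hq2 := hq.two_le
  have hP0 : P ≠ 0 := by
    rintro rfl
    rw [Polynomial.natDegree_zero] at hdeg
    omega
  rw [poleDiv_aeval hRR (transcendental_jC' N₀ _) hP0, hdeg]

/-- `deg (h)_∞ = (q - 1) ψ(N₀)`. -/
theorem degree_poleDiv_ss (hq : q.Prime) (hqN : ¬ q ∣ N₀) (hA : A.LiesOverPrime q)
    (hRR : IsRRField (IsLocalRing.ResidueField A)
      (modularFunctionFieldFullC (IsLocalRing.ResidueField A) N₀))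
    (h : modularFunctionFieldFullC (IsLocalRing.ResidueField A) N₀)
    (hh : (h : LaurentSeries (IsLocalRing.ResidueField A)) =
      ssFun (IsLocalRing.ResidueField A) q) :
    Divisor.degree (poleDiv hRR h) = (((q - 1) * dedekindPsi N₀ : ℕ) : ℤ) := by
  haveI := finiteDimensional_adjoin_ss N₀ hq hA h hh
  rw [Fermat.Agent.RRHur.degree_poleDiv_eq_finrank hRR (transcendental_ss N₀ hq hA h hh),
    finrank_adjoin_ss N₀ hq hqN hA h hh]

/-- `deg (j̄)_∞ = ψ(N₀)`. -/
theorem degree_poleDiv_jC (hq : q.Prime) (hqN : ¬ q ∣ N₀) (hA : A.LiesOverPrime q)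
    (hRR : IsRRField (IsLocalRing.ResidueField A)
      (modularFunctionFieldFullC (IsLocalRing.ResidueField A) N₀)) :
    Divisor.degree (poleDiv hRR (Fermat.Agent.RRMod.jC (IsLocalRing.ResidueField A) N₀)) =
      (dedekindPsi N₀ : ℤ) := by
  haveI := Fermat.Agent.RRMod.finiteDimensional_fullC' (IsLocalRing.ResidueField A) N₀
  rw [Fermat.Agent.RRHur.degree_poleDiv_eq_finrank hRR (transcendental_jC' N₀ _),
    Fermat.Agent.GenusEq.degreeModL N₀ q hq hqN A hA]

/-- at a pole of `j̄`: `ord h = (q - 1) ord j̄`. -/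
theorem ord_ss_of_pole (hq : q.Prime) (hA : A.LiesOverPrime q)
    (h : modularFunctionFieldFullC (IsLocalRing.ResidueField A) N₀)
    (hh : (h : LaurentSeries (IsLocalRing.ResidueField A)) =
      ssFun (IsLocalRing.ResidueField A) q)
    (v : Place (IsLocalRing.ResidueField A)
      (modularFunctionFieldFullC (IsLocalRing.ResidueField A) N₀))
    (hv : v.ord (Fermat.Agent.RRMod.jC (IsLocalRing.ResidueField A) N₀) < 0) :
    v.ord h = ((q - 1 : ℕ) : ℤ) *
      v.ord (Fermat.Agent.RRMod.jC (IsLocalRing.ResidueField A) N₀) := by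
  obtain ⟨P, hdeg, rfl⟩ := ss_eq_aeval N₀ hq hA h hh
  have hq2 := hq.two_le
  have hP0 : P ≠ 0 := by
    rintro rfl
    rw [Polynomial.natDegree_zero] at hdeg
    omega
  rw [Fermat.Agent.RRHur.ord_aeval_of_pole (transcendental_jC' N₀ _) v hv hP0, hdeg]

/-- the poles of `h` are exactly the poles of `j̄`. -/
theorem ord_ss_nonneg_iff (hq : q.Prime) (hA : A.LiesOverPrime q)
    (h : modularFunctionFieldFullC (IsLocalRing.ResidueField A) N₀)
    (hh : (h : LaurentSeries (IsLocalRing.ResidueField A)) =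
      ssFun (IsLocalRing.ResidueField A) q)
    (v : Place (IsLocalRing.ResidueField A)
      (modularFunctionFieldFullC (IsLocalRing.ResidueField A) N₀)) :
    0 ≤ v.ord h ↔ 0 ≤ v.ord (Fermat.Agent.RRMod.jC (IsLocalRing.ResidueField A) N₀) := by
  constructor
  · intro h0
    by_contra hv
    have h1 := ord_ss_of_pole N₀ hq hA h hh v (not_le.mp hv)
    have hq2 := hq.two_le
    have h2 : (0 : ℤ) < ((q - 1 : ℕ) : ℤ) := by
      have : 0 < q - 1 := by omega
      exact_mod_cast this
    have h3 := mul_neg_of_pos_of_neg h2 (not_le.mp hv)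
    omega
  · intro hv
    obtain ⟨P, -, rfl⟩ := ss_eq_aeval N₀ hq hA h hh
    exact ord_aeval_nonneg_of_ord v hv P

/-- the zeros of `h` (the supersingular points) are not poles of `j̄` (not cusps). -/
theorem ord_jC_nonneg_of_ss_zero (hq : q.Prime) (hA : A.LiesOverPrime q)
    (h : modularFunctionFieldFullC (IsLocalRing.ResidueField A) N₀)
    (hh : (h : LaurentSeries (IsLocalRing.ResidueField A)) =
      ssFun (IsLocalRing.ResidueField A) q)
    (v : Place (IsLocalRing.ResidueField A)
      (modularFunctionFieldFullC (IsLocalRing.ResidueField A) N₀))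
    (hv : 0 < v.ord h) :
    0 ≤ v.ord (Fermat.Agent.RRMod.jC (IsLocalRing.ResidueField A) N₀) :=
  (ord_ss_nonneg_iff N₀ hq hA h hh v).mp hv.le

end Modular

end Fermat.Agent.BadRed
end
end MergeWrap_Lib_BadRed_Mod_SSDeg
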